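/-
TW / WP8 (helper75): basic 2×2 matrix facts for the Taylor–Wiles selection lemma (Mathlib only).

* Mathlib's `Matrix.discr M = (tr M)^2 - 4 det M` is the discriminant of the characteristic polynomial;
* `tad g X = det g • (g X g⁻¹)`, the twisted adjoint action of `GL₂` on 2×2 matrices
  (`ad⁰(1)` when restricted to trace-zero matrices and `det = ` cyclotomic character);
* the **trace criterion**: for `g` of determinant one with `discr g ≠ 0` and `X` of trace zero,
  `X ∈ (g - 1) sl₂`  iff  `tr (X g) = 0`.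
-/
import Mathlib

set_option autoImplicit false

namespace Fermat.Agent.TW.Select.Sl2Basic75

open Matrix

variable {F : Type*} [Field F]

/-- The twisted adjoint action of `GL₂` on 2×2 matrices: `g • X = det g • (g X g⁻¹)`. -/
def tad (g : GL (Fin 2) F) (X : Matrix (Fin 2) (Fin 2) F) : Matrix (Fin 2) (Fin 2) F :=
  (det (g : Matrix (Fin 2) (Fin 2) F)) •
    ((g : Matrix (Fin 2) (Fin 2) F) * X * ((g⁻¹ : GL (Fin 2) F) : Matrix (Fin 2) (Fin 2) F))

theorem tad_one (X : Matrix (Fin 2) (Fin 2) F) : tad (1 : GL (Fin 2) F) X = X := by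
  simp [tad]

theorem tad_mul (g h : GL (Fin 2) F) (X : Matrix (Fin 2) (Fin 2) F) :
    tad (g * h) X = tad g (tad h X) := by
  simp only [tad, _root_.mul_inv_rev, Units.val_mul, det_mul, Matrix.mul_smul, Matrix.smul_mul,
    smul_smul, Matrix.mul_assoc]

theorem tad_add (g : GL (Fin 2) F) (X Y : Matrix (Fin 2) (Fin 2) F) :
    tad g (X + Y) = tad g X + tad g Y := by
  simp only [tad, Matrix.mul_add, Matrix.add_mul, smul_add]

theorem tad_zero (g : GL (Fin 2) F) : tad g (0 : Matrix (Fin 2) (Fin 2) F) = 0 := by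
  simp [tad]

theorem tad_neg (g : GL (Fin 2) F) (X : Matrix (Fin 2) (Fin 2) F) : tad g (-X) = -tad g X := by
  simp [tad]

theorem tad_sub (g : GL (Fin 2) F) (X Y : Matrix (Fin 2) (Fin 2) F) :
    tad g (X - Y) = tad g X - tad g Y := by
  simp only [sub_eq_add_neg, tad_add, tad_neg]

theorem tad_smul (g : GL (Fin 2) F) (c : F) (X : Matrix (Fin 2) (Fin 2) F) :
    tad g (c • X) = c • tad g X := by
  simp only [tad, Matrix.mul_smul, Matrix.smul_mul, smul_smul, mul_comm]

theorem tad_sum {ι : Type*} (s : Finset ι) (g : GL (Fin 2) F)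
    (X : ι → Matrix (Fin 2) (Fin 2) F) : tad g (∑ i ∈ s, X i) = ∑ i ∈ s, tad g (X i) := by
  classical
  induction s using Finset.induction_on with
  | empty => simp [tad_zero]
  | insert a s ha ih => rw [Finset.sum_insert ha, Finset.sum_insert ha, tad_add, ih]

theorem trace_tad (g : GL (Fin 2) F) (X : Matrix (Fin 2) (Fin 2) F) :
    trace (tad g X) = det (g : Matrix (Fin 2) (Fin 2) F) * trace X := by
  simp only [tad, trace_smul, smul_eq_mul]
  rw [Matrix.trace_mul_cycle, ← Units.val_mul, inv_mul_cancel, Units.val_one, Matrix.one_mul]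

theorem trace_tad_eq_zero (g : GL (Fin 2) F) {X : Matrix (Fin 2) (Fin 2) F} (hX : trace X = 0) :
    trace (tad g X) = 0 := by
  rw [trace_tad, hX, mul_zero]

theorem tad_inv_tad (g : GL (Fin 2) F) (X : Matrix (Fin 2) (Fin 2) F) : tad g⁻¹ (tad g X) = X := by
  rw [← tad_mul, inv_mul_cancel, tad_one]

theorem tad_tad_inv (g : GL (Fin 2) F) (X : Matrix (Fin 2) (Fin 2) F) : tad g (tad g⁻¹ X) = X := by
  rw [← tad_mul, mul_inv_cancel, tad_one]

/-- For determinant one, `tad` is plain conjugation. -/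
theorem tad_of_det_eq_one (g : GL (Fin 2) F) (hg : det (g : Matrix (Fin 2) (Fin 2) F) = 1)
    (X : Matrix (Fin 2) (Fin 2) F) :
    tad g X = (g : Matrix (Fin 2) (Fin 2) F) * X * ((g⁻¹ : GL (Fin 2) F) : Matrix (Fin 2) (Fin 2) F) := by
  rw [tad, hg, one_smul]

/-- `tad g Y * g = det g • (g * Y)`. -/
theorem tad_mul_self (g : GL (Fin 2) F) (Y : Matrix (Fin 2) (Fin 2) F) :
    tad g Y * (g : Matrix (Fin 2) (Fin 2) F) =
      det (g : Matrix (Fin 2) (Fin 2) F) • ((g : Matrix (Fin 2) (Fin 2) F) * Y) := by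
  rw [tad, Matrix.smul_mul, Matrix.mul_assoc, ← Units.val_mul, inv_mul_cancel, Units.val_one,
    Matrix.mul_one]

/-- Easy half of the trace criterion. -/
theorem trace_tad_sub_mul (g : GL (Fin 2) F) (hg : det (g : Matrix (Fin 2) (Fin 2) F) = 1)
    (Y : Matrix (Fin 2) (Fin 2) F) :
    trace ((tad g Y - Y) * (g : Matrix (Fin 2) (Fin 2) F)) = 0 := by
  rw [Matrix.sub_mul, tad_mul_self, hg, one_smul, trace_sub, Matrix.trace_mul_comm, sub_self]

/-- Matrix identity behind the trace criterion. -/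
theorem comm_key (G X : Matrix (Fin 2) (Fin 2) F) (hg : det G = 1) (hX : trace X = 0)
    (hXg : trace (X * G) = 0) :
    G * (G * X * G - X * (G * G)) - (G * X * G - X * (G * G)) * G = discr G • (X * G) := by
  have hdet : G 0 0 * G 1 1 - G 0 1 * G 1 0 = 1 := by
    rw [← det_fin_two]; exact hg
  have htr : X 0 0 + X 1 1 = 0 := by
    rw [← trace_fin_two]; exact hX
  have hxg : X 0 0 * G 0 0 + X 0 1 * G 1 0 + (X 1 0 * G 0 1 + X 1 1 * G 1 1) = 0 := by
    have := hXg
    rw [trace_fin_two, Matrix.mul_apply, Matrix.mul_apply, Fin.sum_univ_two,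
      Fin.sum_univ_two] at this
    exact this
  rw [discr_fin_two, hg, trace_fin_two]
  ext i j
  fin_cases i <;> fin_cases j <;>
    simp only [Matrix.sub_apply, Matrix.mul_apply, Matrix.smul_apply, Fin.sum_univ_two,
      smul_eq_mul, Fin.zero_eta, Fin.mk_one, Fin.isValue] <;>
    grind

/-- Matrix form of the hard half of the trace criterion. -/
theorem exists_conj_sub_eq (G Gi X : Matrix (Fin 2) (Fin 2) F) (hGGi : G * Gi = 1)
    (hg : det G = 1) (hD : discr G ≠ 0) (hX : trace X = 0) (hXg : trace (X * G) = 0) :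
    ∃ Y : Matrix (Fin 2) (Fin 2) F, trace Y = 0 ∧ G * Y * Gi - Y = X := by
  refine ⟨(discr G)⁻¹ • (G * X * G - X * (G * G)), ?_, ?_⟩
  · rw [trace_smul, trace_sub, Matrix.trace_mul_cycle, Matrix.trace_mul_comm (G * G) X, sub_self,
      smul_zero]
  · have key := comm_key G X hg hX hXg
    set Y₀ := G * X * G - X * (G * G) with hY₀
    have h1 : G * ((discr G)⁻¹ • Y₀) - ((discr G)⁻¹ • Y₀) * G = X * G := by
      rw [Matrix.mul_smul, Matrix.smul_mul, ← smul_sub, key, smul_smul, inv_mul_cancel₀ hD,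
        one_smul]
    have h2 : G * ((discr G)⁻¹ • Y₀) * Gi - (discr G)⁻¹ • Y₀
        = (G * ((discr G)⁻¹ • Y₀) - ((discr G)⁻¹ • Y₀) * G) * Gi := by
      rw [Matrix.sub_mul, Matrix.mul_assoc _ G Gi, hGGi, Matrix.mul_one]
    rw [h2, h1, Matrix.mul_assoc, hGGi, Matrix.mul_one]

/-- **Trace criterion**, hard half: explicit preimage `Y = D⁻¹ (g X g - X g²)`. -/
theorem exists_tad_sub_eq (g : GL (Fin 2) F) (hg : det (g : Matrix (Fin 2) (Fin 2) F) = 1)
    (hD : discr (g : Matrix (Fin 2) (Fin 2) F) ≠ 0) (X : Matrix (Fin 2) (Fin 2) F)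
    (hX : trace X = 0) (hXg : trace (X * (g : Matrix (Fin 2) (Fin 2) F)) = 0) :
    ∃ Y : Matrix (Fin 2) (Fin 2) F, trace Y = 0 ∧ tad g Y - Y = X := by
  have hGGi : (g : Matrix (Fin 2) (Fin 2) F) *
      ((g⁻¹ : GL (Fin 2) F) : Matrix (Fin 2) (Fin 2) F) = 1 := by
    rw [← Units.val_mul, mul_inv_cancel, Units.val_one]
  obtain ⟨Y, hY, hYX⟩ := exists_conj_sub_eq _ _ X hGGi hg hD hX hXg
  exact ⟨Y, hY, by rw [tad_of_det_eq_one g hg]; exact hYX⟩

/-- **Trace criterion**: for `g` of determinant one with nonzero discriminant and `X` of trace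
zero, `X ∈ (g - 1) sl₂` iff `tr (X g) = 0`. -/
theorem exists_tad_sub_eq_iff (g : GL (Fin 2) F) (hg : det (g : Matrix (Fin 2) (Fin 2) F) = 1)
    (hD : discr (g : Matrix (Fin 2) (Fin 2) F) ≠ 0) (X : Matrix (Fin 2) (Fin 2) F)
    (hX : trace X = 0) :
    (∃ Y : Matrix (Fin 2) (Fin 2) F, trace Y = 0 ∧ tad g Y - Y = X) ↔
      trace (X * (g : Matrix (Fin 2) (Fin 2) F)) = 0 := by
  constructor
  · rintro ⟨Y, -, rfl⟩
    exact trace_tad_sub_mul g hg Y
  · exact exists_tad_sub_eq g hg hD X hX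

end Fermat.Agent.TW.Select.Sl2Basic75
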