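/-
TW / WP8 (helper75): bare 1-cocycles with values in 2×2 matrices under the twisted adjoint action
`g • X = det (ρ g) • ρ g * X * (ρ g)⁻¹` (Mathlib only).

Main results:
* `IsCocycle`, `IsCoboundary` and their elementary calculus;
* `IsCocycle.conj_formula`: `t • ψ (t⁻¹ u t) = ψ u + (u • ψ t - ψ t)`;
* `isCoboundary_of_restrict`: **restriction to a subgroup of index invertible in `F` is injective
  on `H¹`** (averaging over cosets);
* `IsCocycle.eq_of_rho_eq`: a cocycle vanishing on `ker ρ` only depends on `ρ g`.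
-/
import Fermat.Agent.TW.Select.Sl2Basic75

set_option autoImplicit false

namespace Fermat.Agent.TW.Select.Cocycle75

open Matrix Fermat.Agent.TW.Select.Sl2Basic75

variable {F : Type*} [Field F] {Γ : Type*} [Group Γ]

/-- A 1-cocycle of `Γ` with values in trace-zero 2×2 matrices, for the twisted adjoint action
through `ρ`. -/
structure IsCocycle (ρ : Γ →* GL (Fin 2) F) (ψ : Γ → Matrix (Fin 2) (Fin 2) F) : Prop where
  trace_zero : ∀ g, trace (ψ g) = 0
  map_mul : ∀ g h, ψ (g * h) = ψ g + tad (ρ g) (ψ h)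

/-- The coboundary of a matrix `m`. -/
def cob (ρ : Γ →* GL (Fin 2) F) (m : Matrix (Fin 2) (Fin 2) F) (g : Γ) :
    Matrix (Fin 2) (Fin 2) F := tad (ρ g) m - m

/-- `ψ` is the coboundary of a trace-zero matrix. -/
def IsCoboundary (ρ : Γ →* GL (Fin 2) F) (ψ : Γ → Matrix (Fin 2) (Fin 2) F) : Prop :=
  ∃ m : Matrix (Fin 2) (Fin 2) F, trace m = 0 ∧ ∀ g, ψ g = cob ρ m g

theorem cob_isCocycle (ρ : Γ →* GL (Fin 2) F) {m : Matrix (Fin 2) (Fin 2) F} (hm : trace m = 0) :
    IsCocycle ρ (cob ρ m) where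
  trace_zero g := by
    rw [cob, trace_sub, trace_tad_eq_zero _ hm, hm, sub_zero]
  map_mul g h := by
    simp only [cob, map_mul, tad_mul, tad_sub]
    abel

namespace IsCocycle

variable {ρ : Γ →* GL (Fin 2) F} {ψ : Γ → Matrix (Fin 2) (Fin 2) F}

theorem map_one (hψ : IsCocycle ρ ψ) : ψ 1 = 0 := by
  have h := hψ.map_mul 1 1
  rw [mul_one, _root_.map_one, tad_one] at h
  simpa using h

theorem map_inv (hψ : IsCocycle ρ ψ) (g : Γ) : ψ g⁻¹ = - tad (ρ g)⁻¹ (ψ g) := by
  have h := hψ.map_mul g⁻¹ g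
  rw [inv_mul_cancel, hψ.map_one, _root_.map_inv] at h
  exact eq_neg_of_add_eq_zero_left h.symm

theorem sub (hψ : IsCocycle ρ ψ) {φ : Γ → Matrix (Fin 2) (Fin 2) F} (hφ : IsCocycle ρ φ) :
    IsCocycle ρ (fun g => ψ g - φ g) where
  trace_zero g := by rw [trace_sub, hψ.trace_zero, hφ.trace_zero, sub_zero]
  map_mul g h := by
    rw [hψ.map_mul, hφ.map_mul, tad_sub]
    abel

theorem sub_cob (hψ : IsCocycle ρ ψ) {m : Matrix (Fin 2) (Fin 2) F} (hm : trace m = 0) :
    IsCocycle ρ (fun g => ψ g - cob ρ m g) :=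
  hψ.sub (cob_isCocycle ρ hm)

/-- Conjugation formula: `t • ψ (t⁻¹ u t) = ψ u + (u • ψ t - ψ t)`. -/
theorem conj_formula (hψ : IsCocycle ρ ψ) (t u : Γ) :
    tad (ρ t) (ψ (t⁻¹ * u * t)) = ψ u + (tad (ρ u) (ψ t) - ψ t) := by
  rw [hψ.map_mul, hψ.map_mul, hψ.map_inv, tad_add, tad_add, tad_neg, _root_.map_mul,
    _root_.map_inv, tad_mul]
  simp only [tad_tad_inv]
  abel

/-- If `ψ` kills `a` and `ρ a = 1`, then `ψ (g * a) = ψ g`. -/
theorem mul_right_of_eq_zero (hψ : IsCocycle ρ ψ) (g : Γ) {a : Γ} (ha : ψ a = 0) :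
    ψ (g * a) = ψ g := by
  rw [hψ.map_mul, ha, tad_zero, add_zero]

/-- A cocycle vanishing on `ker ρ` only depends on `ρ g`. -/
theorem eq_of_rho_eq (hψ : IsCocycle ρ ψ) (hker : ∀ a, ρ a = 1 → ψ a = 0) {g g' : Γ}
    (h : ρ g = ρ g') : ψ g = ψ g' := by
  have h1 : ρ (g⁻¹ * g') = 1 := by rw [_root_.map_mul, _root_.map_inv, h, inv_mul_cancel]
  have h2 := hψ.mul_right_of_eq_zero g (hker _ h1)
  rw [mul_inv_cancel_left] at h2
  exact h2.symm

end IsCocycle

theorem IsCoboundary.isCocycle {ρ : Γ →* GL (Fin 2) F} {ψ : Γ → Matrix (Fin 2) (Fin 2) F}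
    (h : IsCoboundary ρ ψ) : IsCocycle ρ ψ := by
  obtain ⟨m, hm, hψ⟩ := h
  have : ψ = cob ρ m := funext hψ
  rw [this]
  exact cob_isCocycle ρ hm

/-- `ψ - cob m` is a coboundary iff `ψ` is. -/
theorem isCoboundary_of_sub_cob {ρ : Γ →* GL (Fin 2) F} {ψ : Γ → Matrix (Fin 2) (Fin 2) F}
    {m : Matrix (Fin 2) (Fin 2) F} (hm : trace m = 0)
    (h : IsCoboundary ρ (fun g => ψ g - cob ρ m g)) : IsCoboundary ρ ψ := by
  obtain ⟨m', hm', h'⟩ := h
  refine ⟨m' + m, by rw [trace_add, hm, hm', add_zero], fun g => ?_⟩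
  have := h' g
  simp only [cob, tad_add] at this ⊢
  rw [sub_eq_iff_eq_add] at this
  rw [this]
  abel

section Averaging

variable [Finite Γ] {ρ : Γ →* GL (Fin 2) F} {ψ : Γ → Matrix (Fin 2) (Fin 2) F}

/-- Averaging lemma, normalised form: a cocycle vanishing on a subgroup `S` whose index is
invertible in `F` is a coboundary. -/
theorem isCoboundary_of_vanish (hψ : IsCocycle ρ ψ) (S : Subgroup Γ)
    (hS : (S.index : F) ≠ 0) (hres : ∀ s ∈ S, ψ s = 0) : IsCoboundary ρ ψ := by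
  classical
  let _ : Fintype (Γ ⧸ S) := Fintype.ofFinite _
  -- `ψ` is constant on left cosets
  have hconst : ∀ g g' : Γ, (g : Γ ⧸ S) = g' → ψ g = ψ g' := by
    intro g g' h
    have hmem : g⁻¹ * g' ∈ S := QuotientGroup.eq.mp h
    have := hψ.mul_right_of_eq_zero g (hres _ hmem)
    rw [mul_inv_cancel_left] at this
    exact this.symm
  set M : Matrix (Fin 2) (Fin 2) F := ∑ c : Γ ⧸ S, ψ c.out with hM
  have hn : (Fintype.card (Γ ⧸ S) : F) ≠ 0 := by
    rw [← Nat.card_eq_fintype_card, ← Subgroup.index_eq_card]; exact hS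
  set n : F := (Fintype.card (Γ ⧸ S) : F) with hndef
  have hMtr : trace M = 0 := by
    rw [hM, trace_sum]
    exact Finset.sum_eq_zero fun c _ => hψ.trace_zero _
  have key : ∀ h : Γ, tad (ρ h) M = M - n • ψ h := by
    intro h
    rw [hM, tad_sum]
    have h1 : ∀ c : Γ ⧸ S, tad (ρ h) (ψ c.out) = ψ ((h • c).out) - ψ h := by
      intro c
      have h2 : ψ (h * c.out) = ψ ((h • c).out) := by
        apply hconst
        rw [QuotientGroup.out_eq']
        conv_rhs => rw [← QuotientGroup.out_eq' c]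
        rfl
      rw [← h2, hψ.map_mul]
      abel
    rw [Finset.sum_congr rfl fun c _ => h1 c, Finset.sum_sub_distrib]
    have h3 : ∑ c : Γ ⧸ S, ψ ((h • c).out) = ∑ c : Γ ⧸ S, ψ c.out :=
      Equiv.sum_comp (MulAction.toPerm h) fun c : Γ ⧸ S => ψ c.out
    rw [h3, Finset.sum_const, Finset.card_univ, hndef, Nat.cast_smul_eq_nsmul]
  refine ⟨-(n⁻¹ • M), by rw [trace_neg, trace_smul, hMtr, smul_zero, neg_zero], fun h => ?_⟩
  rw [cob, tad_neg, tad_smul, key h, smul_sub, smul_smul, inv_mul_cancel₀ hn, one_smul]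
  abel

/-- **Restriction to a subgroup of index prime to the characteristic is injective on `H¹`**:
if the restriction of the cocycle `ψ` to `S` is the coboundary of `m`, and the index of `S` is
invertible in `F`, then `ψ` is a coboundary. -/
theorem isCoboundary_of_restrict (hψ : IsCocycle ρ ψ) (S : Subgroup Γ)
    (hS : (S.index : F) ≠ 0) {m : Matrix (Fin 2) (Fin 2) F} (hm : trace m = 0)
    (hres : ∀ s ∈ S, ψ s = cob ρ m s) : IsCoboundary ρ ψ := by
  apply isCoboundary_of_sub_cob hm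
  apply isCoboundary_of_vanish (hψ.sub_cob hm) S hS
  intro s hs
  simp only [hres s hs, sub_self]

end Averaging

end Fermat.Agent.TW.Select.Cocycle75
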