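/-
Dickson–Borel brick (WP8(c) of the TW program), part 1: the abstract counting argument.
Mathlib only.  A finite group `Γ` acts on a set `X` (in the application: a finite subgroup of
`SL₂(F)` acting on the projective line), `Z` is the kernel of the action, every element outside
`Z` has one or two fixed points.  Double counting of (element, fixed point) pairs plus the
arithmetic lemma `dickson_arith` give `dickson_count`: the parabolic orbit has `q + 1` points,
`(q - 1) ∣ 2 e`, and the other special stabilisers have order `z e (q + 1) / (q - 1)`.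
-/
import Mathlib

namespace Fermat.Agent.TW.Select.DicksonCount40

open Finset

open scoped Classical

noncomputable section

/-- The arithmetic heart of Dickson's counting argument.
`q` = order of a Sylow `p`-subgroup, `e` = order of the torus part of the Borel (mod centre),
`N = 1 + m q` = size of the orbit of the parabolic point, `g = N q e` = order of the group mod
centre, `R = 2 + N (q - 2)` = size of the second special orbit, which must divide `g`.
Conclusion: `m = 1` and `(q - 1) ∣ 2 e`. -/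
theorem dickson_arith (q e m N g R : ℕ) (hq : 3 < q) (hm : 1 ≤ m) (he1 : 1 ≤ e)
    (he : e ≤ q - 1) (hN : N = 1 + m * q) (hg : g = N * q * e) (hR : R = 2 + N * (q - 2))
    (hRg : R ∣ g) : m = 1 ∧ (q - 1) ∣ 2 * e := by
  obtain ⟨k, rfl⟩ : ∃ k, q = k + 4 := ⟨q - 4, by omega⟩
  have hk2 : k + 4 - 2 = k + 2 := by omega
  have hk1 : k + 4 - 1 = k + 3 := by omega
  rw [hk2] at hR
  rw [hk1] at he ⊢
  set D := 1 + m * (k + 2) with hD
  have hND : N = D + 2 * m := by rw [hN, hD]; ring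
  have hRD : R = (k + 4) * D := by rw [hR, hN, hD]; ring
  have h1 : (k + 4) * D ∣ (k + 4) * (N * e) := by
    rw [← hRD]; convert hRg using 1; rw [hg]; ring
  have h2 : D ∣ N * e := Nat.dvd_of_mul_dvd_mul_left (by omega) h1
  have h3 : D ∣ m * (2 * e) := by
    have : N * e = D * e + m * (2 * e) := by rw [hND]; ring
    rw [this] at h2
    exact (Nat.dvd_add_right (dvd_mul_right D e)).mp h2
  have hcop : Nat.Coprime D m := by
    rw [hD]
    have : Nat.gcd (1 + m * (k + 2)) m = 1 := by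
      rw [Nat.gcd_comm, Nat.gcd_add_mul_left_right]; simp
    exact this
  have h4 : D ∣ 2 * e := hcop.dvd_of_dvd_mul_left h3
  have h5 : D ≤ 2 * e := Nat.le_of_dvd (by omega) h4
  have hm2 : m ≤ 2 := by
    by_contra hcon
    rw [not_le] at hcon
    have : 3 * (k + 2) ≤ m * (k + 2) := Nat.mul_le_mul_right _ hcon
    omega
  interval_cases m
  · refine ⟨rfl, ?_⟩
    have : D = k + 3 := by rw [hD]; ring
    rwa [this] at h4
  · exfalso
    have hD2 : D = 2 * (k + 2) + 1 := by rw [hD]; ring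
    have hc2 : Nat.Coprime D 2 := by
      rw [hD2]; simp [Nat.coprime_two_right]
    have h6 : D ∣ e := hc2.dvd_of_dvd_mul_left h4
    have h7 : D ≤ e := Nat.le_of_dvd (by omega) h6
    omega

section Basic

variable (Γ : Type*) {X : Type*} [Group Γ] [Fintype Γ] [MulAction Γ X]

/-- The orbit of `x` as a finset. -/
def orbF (x : X) : Finset X := univ.image (fun g : Γ => g • x)

/-- The stabiliser of `x` as a finset. -/
def stabF (x : X) : Finset Γ := univ.filter (fun g : Γ => g • x = x)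

variable {Γ}

theorem mem_orbF {x y : X} : y ∈ orbF Γ x ↔ ∃ g : Γ, g • x = y := by
  simp [orbF]

theorem mem_stabF {x : X} {g : Γ} : g ∈ stabF Γ x ↔ g • x = x := by
  simp [stabF]

theorem self_mem_orbF (x : X) : x ∈ orbF Γ x := mem_orbF.2 ⟨1, one_smul _ _⟩

theorem orbF_smul (k : Γ) (x : X) : orbF Γ (k • x) = orbF Γ x := by
  ext y
  simp only [mem_orbF]
  constructor
  · rintro ⟨g, rfl⟩; exact ⟨g * k, mul_smul _ _ _⟩
  · rintro ⟨g, rfl⟩; exact ⟨g * k⁻¹, by rw [mul_smul, inv_smul_smul]⟩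

theorem orbF_eq_of_mem {x y : X} (h : y ∈ orbF Γ x) : orbF Γ y = orbF Γ x := by
  obtain ⟨g, rfl⟩ := mem_orbF.1 h
  exact orbF_smul g x

/-- Orbit–stabiliser, finset form. -/
theorem card_orbF_mul_card_stabF (x : X) :
    (orbF Γ x).card * (stabF Γ x).card = Fintype.card Γ := by
  have h := Finset.card_eq_sum_card_fiberwise (s := (univ : Finset Γ)) (t := orbF Γ x)
    (f := fun g => g • x) (fun g _ => mem_orbF.2 ⟨g, rfl⟩)
  rw [card_univ] at h
  rw [h, Finset.sum_const_nat (m := (stabF Γ x).card)]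
  intro y hy
  obtain ⟨k, rfl⟩ := mem_orbF.1 hy
  refine Finset.card_bij (fun g _ => k⁻¹ * g) ?_ ?_ ?_
  · intro g hg
    simp only [mem_filter, mem_univ, true_and] at hg
    rw [mem_stabF, mul_smul, hg, inv_smul_smul]
  · intro a _ b _ hab
    exact mul_left_cancel hab
  · intro b hb
    rw [mem_stabF] at hb
    refine ⟨k * b, ?_, by group⟩
    simp only [mem_filter, mem_univ, true_and]
    rw [mul_smul, hb]

theorem card_stabF_eq_of_mem {x y : X} (h : y ∈ orbF Γ x) :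
    (stabF Γ y).card = (stabF Γ x).card := by
  have h1 := card_orbF_mul_card_stabF (Γ := Γ) x
  have h2 := card_orbF_mul_card_stabF (Γ := Γ) y
  rw [orbF_eq_of_mem h] at h2
  have hpos : 0 < (orbF Γ x).card := Finset.card_pos.2 ⟨x, self_mem_orbF x⟩
  exact Nat.eq_of_mul_eq_mul_left hpos (h2.trans h1.symm)

/-- A subgroup acting freely on a stable finset: its order divides the size of the finset. -/
theorem card_dvd_of_free (U : Subgroup Γ) (S : Finset X)
    (hstable : ∀ u ∈ U, ∀ x ∈ S, u • x ∈ S)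
    (hfree : ∀ u ∈ U, u ≠ 1 → ∀ x ∈ S, u • x ≠ x) :
    (univ.filter (· ∈ U)).card ∣ S.card := by
  induction S using Finset.strongInduction with
  | H S ih =>
    rcases S.eq_empty_or_nonempty with rfl | ⟨x, hx⟩
    · simp
    set O : Finset X := (univ.filter (· ∈ U)).image (fun u : Γ => u • x) with hO
    have hOS : O ⊆ S := by
      intro y hy
      obtain ⟨u, hu, rfl⟩ := mem_image.1 hy
      exact hstable u (mem_filter.1 hu).2 x hx
    have hOcard : O.card = (univ.filter (· ∈ U)).card := by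
      apply Finset.card_image_of_injOn
      intro u hu v hv huv
      have hu' : u ∈ U := (mem_filter.1 hu).2
      have hv' : v ∈ U := (mem_filter.1 hv).2
      by_contra hne
      have h1 : v⁻¹ * u ≠ 1 := fun h => hne (by rw [inv_mul_eq_one] at h; exact h.symm)
      apply hfree (v⁻¹ * u) (U.mul_mem (U.inv_mem hv') hu') h1 x hx
      have huv' : u • x = v • x := huv
      rw [mul_smul, huv', inv_smul_smul]
    have hxO : x ∈ O := mem_image.2 ⟨1, mem_filter.2 ⟨mem_univ _, U.one_mem⟩, one_smul _ _⟩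
    have hlt : S \ O ⊂ S := by
      refine Finset.ssubset_iff_subset_ne.2 ⟨Finset.sdiff_subset, fun h => ?_⟩
      have : x ∈ S \ O := by rw [h]; exact hx
      exact (mem_sdiff.1 this).2 hxO
    have hih := ih (S \ O) hlt ?_ ?_
    · have hc : S.card = (S \ O).card + O.card := by
        rw [Finset.card_sdiff_of_subset hOS]
        have := Finset.card_le_card hOS
        omega
      rw [hc]
      exact Dvd.dvd.add hih (hOcard ▸ dvd_rfl)
    · intro u hu y hy
      rw [mem_sdiff] at hy ⊢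
      refine ⟨hstable u hu y hy.1, fun hcon => hy.2 ?_⟩
      obtain ⟨v, hv, hvy⟩ := mem_image.1 hcon
      refine mem_image.2 ⟨u⁻¹ * v, mem_filter.2 ⟨mem_univ _, U.mul_mem (U.inv_mem hu) (mem_filter.1 hv).2⟩, ?_⟩
      have hvy' : v • x = u • y := hvy
      rw [mul_smul, hvy', inv_smul_smul]
    · intro u hu hu1 y hy
      exact hfree u hu hu1 y (mem_sdiff.1 hy).1

end Basic

section Main

variable {Γ : Type*} (X : Type*) [Group Γ] [Fintype Γ] [MulAction Γ X]

/-- `γ` has exactly one fixed point on `X`. -/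
def IsPar (γ : Γ) : Prop := ∃ x : X, ∀ y : X, γ • y = y ↔ y = x

/-- `γ` has exactly two fixed points on `X`. -/
def IsHyp (γ : Γ) : Prop := ∃ x x' : X, x ≠ x' ∧ ∀ y : X, γ • y = y ↔ (y = x ∨ y = x')

variable {X}

omit [Fintype Γ] in
theorem isPar_conj {γ : Γ} (k : Γ) (h : IsPar X γ) : IsPar X (k * γ * k⁻¹) := by
  obtain ⟨x, hx⟩ := h
  refine ⟨k • x, fun y => ?_⟩
  rw [mul_smul, mul_smul, smul_eq_iff_eq_inv_smul, hx, inv_smul_eq_iff]

omit [Fintype Γ] in
theorem isPar_conj_iff {γ : Γ} (k : Γ) : IsPar X (k * γ * k⁻¹) ↔ IsPar X γ := by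
  refine ⟨fun h => ?_, isPar_conj k⟩
  have := isPar_conj k⁻¹ h
  simpa [mul_assoc] using this

omit [Fintype Γ] in
theorem not_isPar_of_isHyp {γ : Γ} (h : IsHyp X γ) : ¬ IsPar X γ := by
  rintro ⟨x, hx⟩
  obtain ⟨a, b, hab, h2⟩ := h
  have ha : a = x := (hx a).1 ((h2 a).2 (Or.inl rfl))
  have hb : b = x := (hx b).1 ((h2 b).2 (Or.inr rfl))
  exact hab (ha.trans hb.symm)

/-- The number of elements outside `Z` fixing `x`. -/
def cnt (Z : Subgroup Γ) (x : X) : ℕ :=
  (univ.filter (fun γ : Γ => γ ∉ Z ∧ γ • x = x)).card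

/-- The hypotheses of the counting argument. -/
structure Setup (Z U : Subgroup Γ) (x₀ : X) : Prop where
  hZ : ∀ γ : Γ, γ ∈ Z ↔ ∀ x : X, γ • x = x
  hfix : ∀ γ : Γ, γ ∉ Z → IsPar X γ ∨ IsHyp X γ
  hU : ∀ u ∈ U, u ≠ 1 → ∀ y : X, u • y = y ↔ y = x₀
  hUnt : ∃ u ∈ U, u ≠ 1
  hmove : ∃ k : Γ, k • x₀ ≠ x₀
  hpar : ∀ γ : Γ, γ ∉ Z → IsPar X γ → ∃ k : Γ, γ • (k • x₀) = k • x₀
  hparB : ∀ γ : Γ, γ • x₀ = x₀ → γ ∉ Z → (IsPar X γ ↔ ∃ ζ ∈ Z, ζ * γ ∈ U)

namespace Setup

variable {Z U : Subgroup Γ} {x₀ : X} (S : Setup Z U x₀)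
include S

omit [Fintype Γ] in
theorem conj_mem_Z {γ : Γ} (k : Γ) (h : γ ∈ Z) : k * γ * k⁻¹ ∈ Z := by
  rw [S.hZ] at h ⊢
  intro x
  rw [mul_smul, mul_smul, h, smul_inv_smul]

omit [Fintype Γ] in
theorem conj_mem_Z_iff {γ : Γ} (k : Γ) : k * γ * k⁻¹ ∈ Z ↔ γ ∈ Z := by
  refine ⟨fun h => ?_, S.conj_mem_Z k⟩
  have := S.conj_mem_Z k⁻¹ h
  simpa [mul_assoc] using this

omit [Fintype Γ] in
theorem U_le_stab {u : Γ} (hu : u ∈ U) : u • x₀ = x₀ := by
  by_cases h1 : u = 1
  · rw [h1, one_smul]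
  · exact (S.hU u hu h1 x₀).2 rfl

omit [Fintype Γ] in
theorem U_not_mem_Z {u : Γ} (hu : u ∈ U) (h1 : u ≠ 1) : u ∉ Z := by
  intro hz
  obtain ⟨k, hk⟩ := S.hmove
  exact hk ((S.hU u hu h1 (k • x₀)).1 ((S.hZ u).1 hz _))

omit [Fintype Γ] in
theorem Z_le_stab {γ : Γ} (h : γ ∈ Z) (x : X) : γ • x = x := (S.hZ γ).1 h x

/-- the number of elements of `Z * U` -/
theorem card_ZU :
    ((univ.filter (· ∈ Z)) ×ˢ (univ.filter (· ∈ U))).card =
      (univ.filter (fun γ : Γ => ∃ ζ ∈ Z, ζ * γ ∈ U)).card := by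
  refine Finset.card_bij (fun p _ => p.1⁻¹ * p.2) ?_ ?_ ?_
  · rintro ⟨ζ, u⟩ hp
    simp only [mem_product, mem_filter, mem_univ, true_and] at hp ⊢
    exact ⟨ζ, hp.1, by simpa using hp.2⟩
  · rintro ⟨ζ, u⟩ hp ⟨ζ', u'⟩ hp' h
    simp only [mem_product, mem_filter, mem_univ, true_and] at hp hp'
    simp only at h
    have h1 : ζ' * ζ⁻¹ = u' * u⁻¹ := by
      have : u' = ζ' * (ζ⁻¹ * u) := by rw [h]; group
      rw [this]; group
    have h2 : u' * u⁻¹ = 1 := by
      by_contra hne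
      exact S.U_not_mem_Z (U.mul_mem hp'.2 (U.inv_mem hp.2)) hne
        (h1 ▸ Z.mul_mem hp'.1 (Z.inv_mem hp.1))
    have h3 : u' = u := by rwa [mul_inv_eq_one] at h2
    have h4 : ζ' = ζ := by rw [h2, mul_inv_eq_one] at h1; exact h1
    rw [h3, h4]
  · intro γ hγ
    simp only [mem_filter, mem_univ, true_and] at hγ
    obtain ⟨ζ, hζ, hu⟩ := hγ
    refine ⟨(ζ, ζ * γ), ?_, by simp⟩
    simp only [mem_product, mem_filter, mem_univ, true_and]
    exact ⟨hζ, hu⟩

/-- parabolic elements fixing `x₀` are the elements of `Z * U` outside `Z`. -/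
theorem card_par_stab (z q : ℕ) (hz : (univ.filter (· ∈ Z)).card = z)
    (hq : (univ.filter (· ∈ U)).card = q) :
    (univ.filter (fun γ : Γ => γ ∉ Z ∧ IsPar X γ ∧ γ • x₀ = x₀)).card + z = z * q := by
  have h1 := S.card_ZU
  rw [Finset.card_product, hz, hq] at h1
  have h3 := Finset.card_filter_add_card_filter_not
    (s := univ.filter (fun γ : Γ => ∃ ζ ∈ Z, ζ * γ ∈ U)) (p := (· ∈ Z))
  have hA : (univ.filter (fun γ : Γ => ∃ ζ ∈ Z, ζ * γ ∈ U)).filter (· ∈ Z) =
      univ.filter (· ∈ Z) := by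
    ext γ
    simp only [mem_filter, mem_univ, true_and]
    constructor
    · rintro ⟨⟨ζ, hζ, hu⟩, hγ⟩; exact hγ
    · intro hγ; exact ⟨⟨γ⁻¹, Z.inv_mem hγ, by simp [U.one_mem]⟩, hγ⟩
  have hB : (univ.filter (fun γ : Γ => ∃ ζ ∈ Z, ζ * γ ∈ U)).filter (fun γ => ¬ γ ∈ Z) =
      univ.filter (fun γ : Γ => γ ∉ Z ∧ IsPar X γ ∧ γ • x₀ = x₀) := by
    ext γ
    simp only [mem_filter, mem_univ, true_and]
    constructor
    · rintro ⟨⟨ζ, hζ, hu⟩, hγ⟩
      have hfix : γ • x₀ = x₀ := by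
        have h2 : (ζ * γ) • x₀ = x₀ := S.U_le_stab hu
        rw [mul_smul, S.Z_le_stab hζ] at h2
        exact h2
      exact ⟨hγ, (S.hparB γ hfix hγ).2 ⟨ζ, hζ, hu⟩, hfix⟩
    · rintro ⟨hγ, hpar, hfix⟩
      exact ⟨(S.hparB γ hfix hγ).1 hpar, hγ⟩
  rw [hA, hB, hz] at h3
  omega

omit [Fintype Γ] S in
theorem conj_fix_iff (k γ : Γ) (x : X) : (k⁻¹ * γ * k) • x = x ↔ γ • (k • x) = k • x := by
  rw [mul_smul, mul_smul, inv_smul_eq_iff]

theorem card_par_fix (k : Γ) :
    (univ.filter (fun γ : Γ => γ ∉ Z ∧ IsPar X γ ∧ γ • (k • x₀) = k • x₀)).card =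
    (univ.filter (fun γ : Γ => γ ∉ Z ∧ IsPar X γ ∧ γ • x₀ = x₀)).card := by
  refine Finset.card_bij (fun γ _ => k⁻¹ * γ * k) ?_ ?_ ?_
  · intro γ hγ
    simp only [mem_filter, mem_univ, true_and] at hγ ⊢
    refine ⟨?_, ?_, ?_⟩
    · have := (S.conj_mem_Z_iff (γ := γ) k⁻¹).not.2 hγ.1
      simpa using this
    · have := (isPar_conj_iff (X := X) (γ := γ) k⁻¹).2 hγ.2.1
      simpa using this
    · rw [conj_fix_iff]; exact hγ.2.2
  · intro a _ b _ hab
    simpa using hab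
  · intro γ hγ
    simp only [mem_filter, mem_univ, true_and] at hγ
    refine ⟨k * γ * k⁻¹, ?_, by group⟩
    simp only [mem_filter, mem_univ, true_and]
    refine ⟨(S.conj_mem_Z_iff k).not.2 hγ.1, (isPar_conj_iff k).2 hγ.2.1, ?_⟩
    rw [mul_smul, mul_smul, inv_smul_smul, hγ.2.2]

/-- the total number of parabolic elements -/
theorem card_par :
    (univ.filter (fun γ : Γ => γ ∉ Z ∧ IsPar X γ)).card =
      (orbF Γ x₀).card *
        (univ.filter (fun γ : Γ => γ ∉ Z ∧ IsPar X γ ∧ γ • x₀ = x₀)).card := by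
  have hdc := Finset.sum_card_bipartiteAbove_eq_sum_card_bipartiteBelow
    (s := univ.filter (fun γ : Γ => γ ∉ Z ∧ IsPar X γ)) (t := orbF Γ x₀)
    (r := fun (γ : Γ) (x : X) => γ • x = x)
  have hL : ∀ γ ∈ univ.filter (fun γ : Γ => γ ∉ Z ∧ IsPar X γ),
      ((orbF Γ x₀).bipartiteAbove (fun (γ : Γ) (x : X) => γ • x = x) γ).card = 1 := by
    intro γ hγ
    simp only [mem_filter, mem_univ, true_and] at hγ
    obtain ⟨x, hx⟩ := hγ.2
    obtain ⟨k, hk⟩ := S.hpar γ hγ.1 hγ.2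
    have hkx : k • x₀ = x := (hx _).1 hk
    rw [Finset.card_eq_one]
    refine ⟨x, ?_⟩
    ext y
    simp only [Finset.bipartiteAbove, mem_filter, mem_singleton]
    constructor
    · rintro ⟨-, hy⟩; exact (hx y).1 hy
    · rintro rfl; exact ⟨mem_orbF.2 ⟨k, hkx⟩, (hx _).2 rfl⟩
  have hR : ∀ x ∈ orbF Γ x₀,
      ((univ.filter (fun γ : Γ => γ ∉ Z ∧ IsPar X γ)).bipartiteBelow
        (fun (γ : Γ) (x : X) => γ • x = x) x).card =
      (univ.filter (fun γ : Γ => γ ∉ Z ∧ IsPar X γ ∧ γ • x₀ = x₀)).card := by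
    intro x hx
    obtain ⟨k, rfl⟩ := mem_orbF.1 hx
    rw [← S.card_par_fix k]
    congr 1
    ext γ
    simp only [Finset.bipartiteBelow, mem_filter, mem_univ, true_and, and_assoc]
  rw [Finset.sum_congr rfl hL, Finset.sum_congr rfl hR] at hdc
  simpa using hdc

omit [Fintype Γ] in
/-- the set of special points (points with a non-central stabiliser element) is finite -/
theorem finite_special [Finite Γ] : {y : X | ∃ γ : Γ, γ ∉ Z ∧ γ • y = y}.Finite := by
  have h : {y : X | ∃ γ : Γ, γ ∉ Z ∧ γ • y = y} =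
      ⋃ γ ∈ {γ : Γ | γ ∉ Z}, {y : X | γ • y = y} := by
    ext y; simp
  rw [h]
  apply Set.Finite.biUnion (Set.toFinite _)
  intro γ hγ
  rcases S.hfix γ hγ with ⟨x, hx⟩ | ⟨x, x', -, hx⟩
  · apply (Set.finite_singleton x).subset
    intro y hy; exact (hx y).1 hy
  · apply (Set.toFinite {x, x'}).subset
    intro y hy
    rcases (hx y).1 hy with h | h
    · exact Or.inl h
    · exact Or.inr h

/-- the finset of special points -/
def Xsp : Finset X := S.finite_special.toFinset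

theorem mem_Xsp {y : X} : y ∈ S.Xsp ↔ ∃ γ : Γ, γ ∉ Z ∧ γ • y = y := by
  simp [Xsp, Set.Finite.mem_toFinset]

theorem card_nonZ_stab (x : X) (z : ℕ) (hz : (univ.filter (· ∈ Z)).card = z) :
    cnt Z x + z = (stabF Γ x).card := by
  have h3 := Finset.card_filter_add_card_filter_not (s := stabF Γ x) (p := (· ∈ Z))
  have hA : (stabF Γ x).filter (· ∈ Z) = univ.filter (· ∈ Z) := by
    ext γ
    simp only [mem_filter, mem_univ, true_and, mem_stabF]
    exact ⟨fun h => h.2, fun h => ⟨S.Z_le_stab h x, h⟩⟩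
  have hB : (stabF Γ x).filter (fun γ => ¬ γ ∈ Z) =
      univ.filter (fun γ : Γ => γ ∉ Z ∧ γ • x = x) := by
    ext γ
    simp only [mem_filter, mem_univ, true_and, mem_stabF]
    exact ⟨fun h => ⟨h.2, h.1⟩, fun h => ⟨h.2, h.1⟩⟩
  rw [hA, hB, hz] at h3
  unfold cnt
  omega

theorem double_count :
    ∑ x ∈ S.Xsp, cnt Z x
      + (univ.filter (fun γ : Γ => γ ∉ Z ∧ IsPar X γ)).card
      = 2 * (univ.filter (fun γ : Γ => γ ∉ Z)).card := by
  have hdc := Finset.sum_card_bipartiteAbove_eq_sum_card_bipartiteBelow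
    (s := univ.filter (fun γ : Γ => γ ∉ Z)) (t := S.Xsp)
    (r := fun (γ : Γ) (x : X) => γ • x = x)
  have hL : ∀ γ ∈ univ.filter (fun γ : Γ => γ ∉ Z),
      (S.Xsp.bipartiteAbove (fun (γ : Γ) (x : X) => γ • x = x) γ).card =
        if IsPar X γ then 1 else 2 := by
    intro γ hγ
    simp only [mem_filter, mem_univ, true_and] at hγ
    rcases S.hfix γ hγ with hp | hh
    · rw [if_pos hp]
      obtain ⟨x, hx⟩ := hp
      rw [Finset.card_eq_one]
      refine ⟨x, ?_⟩
      ext y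
      simp only [Finset.bipartiteAbove, mem_filter, mem_singleton]
      constructor
      · rintro ⟨-, hy⟩; exact (hx y).1 hy
      · rintro rfl; exact ⟨S.mem_Xsp.2 ⟨γ, hγ, (hx _).2 rfl⟩, (hx _).2 rfl⟩
    · rw [if_neg (not_isPar_of_isHyp hh)]
      obtain ⟨x, x', hne, hx⟩ := hh
      rw [Finset.card_eq_two]
      refine ⟨x, x', hne, ?_⟩
      ext y
      simp only [Finset.bipartiteAbove, mem_filter, mem_insert, mem_singleton]
      constructor
      · rintro ⟨-, hy⟩; exact (hx y).1 hy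
      · intro hy; exact ⟨S.mem_Xsp.2 ⟨γ, hγ, (hx _).2 hy⟩, (hx _).2 hy⟩
  have hR : ∀ x ∈ S.Xsp,
      ((univ.filter (fun γ : Γ => γ ∉ Z)).bipartiteBelow
        (fun (γ : Γ) (x : X) => γ • x = x) x).card =
      cnt Z x := by
    intro x _
    unfold cnt
    congr 1
    ext γ
    simp only [Finset.bipartiteBelow, mem_filter, mem_univ, true_and]
  rw [Finset.sum_congr rfl hL, Finset.sum_congr rfl hR] at hdc
  rw [← hdc, Finset.sum_ite]
  have h3 := Finset.card_filter_add_card_filter_not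
    (s := univ.filter (fun γ : Γ => γ ∉ Z)) (p := fun γ => IsPar X γ)
  have h4 : (univ.filter (fun γ : Γ => γ ∉ Z)).filter (fun γ => IsPar X γ) =
      univ.filter (fun γ : Γ => γ ∉ Z ∧ IsPar X γ) := by
    ext γ; simp only [mem_filter, mem_univ, true_and]
  simp only [Finset.sum_const, smul_eq_mul, mul_one]
  rw [h4] at h3 ⊢
  omega

theorem orbF_subset_Xsp : orbF Γ x₀ ⊆ S.Xsp := by
  intro x hx
  obtain ⟨k, rfl⟩ := mem_orbF.1 hx
  obtain ⟨u, hu, hu1⟩ := S.hUnt
  refine S.mem_Xsp.2 ⟨k * u * k⁻¹, (S.conj_mem_Z_iff k).not.2 (S.U_not_mem_Z hu hu1), ?_⟩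
  rw [mul_smul, mul_smul, inv_smul_smul, S.U_le_stab hu]

theorem card_Z_dvd_card_stabF (x : X) :
    (univ.filter (· ∈ Z)).card ∣ (stabF Γ x).card := by
  apply card_dvd_of_free (X := Γ) Z (stabF Γ x)
  · intro ζ hζ γ hγ
    rw [mem_stabF] at hγ ⊢
    rw [smul_eq_mul, mul_smul, hγ, S.Z_le_stab hζ]
  · intro ζ _ hζ1 γ _ h
    rw [smul_eq_mul] at h
    exact hζ1 (by simpa using h)

omit [MulAction Γ X] S in
theorem card_Z_pos : 0 < (univ.filter (· ∈ Z)).card :=
  Finset.card_pos.2 ⟨1, by simp [Z.one_mem]⟩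

/-- the contribution of the points outside the parabolic orbit -/
theorem sum_T (z q e : ℕ) (hz : (univ.filter (· ∈ Z)).card = z)
    (hq : (univ.filter (· ∈ U)).card = q) (hstab : (stabF Γ x₀).card = z * q * e)
    (hq2 : 2 ≤ q) :
    ∑ x ∈ S.Xsp \ orbF Γ x₀, cnt Z x
      + z * ((orbF Γ x₀).card * (q - 2) + 2) = Fintype.card Γ := by
  obtain ⟨q', rfl⟩ : ∃ q', q = q' + 2 := ⟨q - 2, by omega⟩
  rw [show q' + 2 - 2 = q' by omega]
  have ha := S.double_count
  rw [← Finset.sum_sdiff S.orbF_subset_Xsp] at ha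
  have hO : ∀ x ∈ orbF Γ x₀, cnt Z x =
      cnt Z x₀ := by
    intro x hx
    have h1 := S.card_nonZ_stab x z hz
    have h2 := S.card_nonZ_stab x₀ z hz
    rw [card_stabF_eq_of_mem hx] at h1
    omega
  rw [Finset.sum_congr rfl hO, Finset.sum_const, smul_eq_mul] at ha
  have hb := Finset.card_filter_add_card_filter_not (s := (univ : Finset Γ)) (p := (· ∈ Z))
  rw [hz, Finset.card_univ] at hb
  have hc1 := S.card_par
  have hc2 := S.card_par_stab z (q' + 2) hz hq
  have hd := S.card_nonZ_stab x₀ z hz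
  rw [hstab] at hd
  have he := card_orbF_mul_card_stabF (Γ := Γ) x₀
  rw [hstab] at he
  set N := (orbF Γ x₀).card
  set sT := ∑ x ∈ S.Xsp \ orbF Γ x₀, cnt Z x
  set c₀ := cnt Z x₀
  set par := (univ.filter (fun γ : Γ => γ ∉ Z ∧ IsPar X γ)).card
  set par₀ := (univ.filter (fun γ : Γ => γ ∉ Z ∧ IsPar X γ ∧ γ • x₀ = x₀)).card
  set ss := (univ.filter (fun γ : Γ => ¬ γ ∈ Z)).card
  set G := Fintype.card Γ
  have e1 : N * c₀ + N * z = G := by rw [← mul_add, hd, he]
  have e2 : par + N * z = N * z * q' + 2 * (N * z) := by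
    rw [hc1, ← mul_add, hc2]; ring
  have e4 : z * (N * q' + 2) = N * z * q' + 2 * z := by ring
  rw [e4]
  generalize N * z * q' = B at *
  generalize N * z = A at *
  generalize N * c₀ = C at *
  omega

theorem card_nonZ_eq_of_mem {x y : X} (h : x ∈ orbF Γ y) :
    cnt Z x =
      cnt Z y := by
  have h1 := S.card_nonZ_stab x _ rfl
  have h2 := S.card_nonZ_stab y _ rfl
  rw [card_stabF_eq_of_mem h] at h1
  omega

/-- for a special point `y` outside the parabolic orbit, its orbit stays outside. -/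
theorem orbF_subset_T {y : X} (hy : y ∈ S.Xsp \ orbF Γ x₀) :
    orbF Γ y ⊆ S.Xsp \ orbF Γ x₀ := by
  intro x hx
  obtain ⟨k, rfl⟩ := mem_orbF.1 hx
  rw [mem_sdiff] at hy ⊢
  obtain ⟨γ, hγ, hfix⟩ := S.mem_Xsp.1 hy.1
  refine ⟨S.mem_Xsp.2 ⟨k * γ * k⁻¹, (S.conj_mem_Z_iff k).not.2 hγ, ?_⟩, ?_⟩
  · rw [mul_smul, mul_smul, inv_smul_smul, hfix]
  · intro hcon
    apply hy.2
    obtain ⟨g, hg⟩ := mem_orbF.1 hcon
    exact mem_orbF.2 ⟨k⁻¹ * g, by rw [mul_smul, hg, inv_smul_smul]⟩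

theorem stab_facts {y : X} (hy : y ∈ S.Xsp) (z : ℕ) (hz : (univ.filter (· ∈ Z)).card = z) :
    ∃ k, 2 ≤ k ∧ (stabF Γ y).card = z * k ∧
      cnt Z y + z = z * k := by
  obtain ⟨k, hk⟩ := S.card_Z_dvd_card_stabF y
  rw [hz] at hk
  have h1 := S.card_nonZ_stab y z hz
  have hzpos : 0 < z := hz ▸ card_Z_pos
  have hpos : 0 < cnt Z y := by
    obtain ⟨γ, hγ, hfix⟩ := S.mem_Xsp.1 hy
    exact Finset.card_pos.2 ⟨γ, by simp [hγ, hfix]⟩
  refine ⟨k, ?_, hk, by rw [h1, hk]⟩
  by_contra hlt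
  have hk1 : k ≤ 1 := by omega
  have : z * k ≤ z * 1 := Nat.mul_le_mul_left z hk1
  omega

/-- Every special orbit outside the parabolic orbit has `N (q - 2) + 2` elements. -/
theorem card_orbF_of_mem_T (z q e : ℕ) (hz : (univ.filter (· ∈ Z)).card = z)
    (hq : (univ.filter (· ∈ U)).card = q) (hstab : (stabF Γ x₀).card = z * q * e)
    (hq2 : 2 ≤ q) {y : X} (hy : y ∈ S.Xsp \ orbF Γ x₀) :
    (orbF Γ y).card = (orbF Γ x₀).card * (q - 2) + 2 := by
  have hsum := S.sum_T z q e hz hq hstab hq2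
  have hzpos : 0 < z := hz ▸ card_Z_pos
  have key : ∀ y' ∈ S.Xsp \ orbF Γ x₀,
      ∑ x ∈ orbF Γ y', cnt Z x = (orbF Γ y').card * cnt Z y' ∧
      Fintype.card Γ ≤ 2 * ((orbF Γ y').card * cnt Z y') ∧
      (orbF Γ y').card * cnt Z y' + (orbF Γ y').card * z = Fintype.card Γ := by
    intro y' hy'
    obtain ⟨k, hk2, hk, hck⟩ := S.stab_facts (mem_sdiff.1 hy').1 z hz
    have h1 : ∑ x ∈ orbF Γ y', cnt Z x = (orbF Γ y').card * cnt Z y' := by
      rw [Finset.sum_congr rfl (fun x hx => S.card_nonZ_eq_of_mem hx), Finset.sum_const,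
        smul_eq_mul]
    have h2 := card_orbF_mul_card_stabF (Γ := Γ) y'
    have h3 : (orbF Γ y').card * cnt Z y' + (orbF Γ y').card * z = Fintype.card Γ := by
      rw [← mul_add, ← h2, hk, hck]
    refine ⟨h1, ?_, h3⟩
    have h4 : z ≤ cnt Z y' := by
      have : z * 2 ≤ z * k := Nat.mul_le_mul_left z hk2
      omega
    have h5 : (orbF Γ y').card * z ≤ (orbF Γ y').card * cnt Z y' := Nat.mul_le_mul_left _ h4
    omega
  obtain ⟨k1, k2, k3⟩ := key y hy
  have hR : 0 < z * ((orbF Γ x₀).card * (q - 2) + 2) := Nat.mul_pos hzpos (by omega)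
  have hTy : S.Xsp \ orbF Γ x₀ ⊆ orbF Γ y := by
    intro y' hy'
    by_contra hcon
    obtain ⟨l1, l2, l3⟩ := key y' hy'
    have hdisj : Disjoint (orbF Γ y) (orbF Γ y') := by
      rw [Finset.disjoint_left]
      intro x hx hx'
      apply hcon
      rw [← orbF_eq_of_mem hx, orbF_eq_of_mem hx']
      exact self_mem_orbF y'
    have hsub : orbF Γ y ∪ orbF Γ y' ⊆ S.Xsp \ orbF Γ x₀ :=
      Finset.union_subset (S.orbF_subset_T hy) (S.orbF_subset_T hy')
    have hle := Finset.sum_le_sum_of_subset (f := fun x => cnt Z x) hsub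
    rw [Finset.sum_union hdisj, k1, l1] at hle
    generalize (orbF Γ y).card * cnt Z y = a1 at *
    generalize (orbF Γ y').card * cnt Z y' = a2 at *
    generalize ∑ x ∈ S.Xsp \ orbF Γ x₀, cnt Z x = a3 at *
    generalize z * ((orbF Γ x₀).card * (q - 2) + 2) = a4 at *
    omega
  have hTeq : S.Xsp \ orbF Γ x₀ = orbF Γ y :=
    Finset.Subset.antisymm hTy (S.orbF_subset_T hy)
  rw [hTeq, k1] at hsum
  have h6 : z * (orbF Γ y).card = z * ((orbF Γ x₀).card * (q - 2) + 2) := by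
    rw [mul_comm z (orbF Γ y).card]
    generalize (orbF Γ y).card * cnt Z y = a1 at *
    generalize (orbF Γ y).card * z = a2 at *
    generalize z * ((orbF Γ x₀).card * (q - 2) + 2) = a4 at *
    omega
  exact Nat.eq_of_mul_eq_mul_left hzpos h6

/-- the set `T` of special points outside the parabolic orbit is nonempty -/
theorem exists_mem_T (z q e : ℕ) (hz : (univ.filter (· ∈ Z)).card = z)
    (hq : (univ.filter (· ∈ U)).card = q) (hstab : (stabF Γ x₀).card = z * q * e)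
    (hq2 : 2 ≤ q) : ∃ y, y ∈ S.Xsp \ orbF Γ x₀ := by
  have hsum := S.sum_T z q e hz hq hstab hq2
  have hzpos : 0 < z := hz ▸ card_Z_pos
  have he := card_orbF_mul_card_stabF (Γ := Γ) x₀
  rw [hstab] at he
  have hN2 : 2 ≤ (orbF Γ x₀).card := by
    obtain ⟨k, hk⟩ := S.hmove
    have : 1 < (orbF Γ x₀).card :=
      Finset.one_lt_card.2 ⟨k • x₀, mem_orbF.2 ⟨k, rfl⟩, x₀, self_mem_orbF x₀, hk⟩
    omega
  have hepos : 0 < e := by
    rcases Nat.eq_zero_or_pos e with h0 | h0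
    · rw [h0] at he
      have : 0 < Fintype.card Γ := Fintype.card_pos
      simp at he
      omega
    · exact h0
  by_contra hcon
  have hempty : S.Xsp \ orbF Γ x₀ = ∅ := by
    rw [Finset.eq_empty_iff_forall_notMem]
    intro y hy; exact hcon ⟨y, hy⟩
  rw [hempty, Finset.sum_empty, zero_add] at hsum
  obtain ⟨q', rfl⟩ : ∃ q', q = q' + 2 := ⟨q - 2, by omega⟩
  rw [show q' + 2 - 2 = q' by omega] at hsum
  set N := (orbF Γ x₀).card
  have h1 : N * (z * (q' + 2) * 1) ≤ N * (z * (q' + 2) * e) :=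
    Nat.mul_le_mul_left _ (Nat.mul_le_mul_left _ hepos)
  have h2 : N * (z * (q' + 2) * 1) = z * (N * q' + 2) + 2 * z * (N - 1) := by
    obtain ⟨N', hN'⟩ : ∃ N', N = N' + 2 := ⟨N - 2, by omega⟩
    rw [hN', show N' + 2 - 1 = N' + 1 by omega]; ring
  have h3 : 0 < 2 * z * (N - 1) := Nat.mul_pos (by omega) (by omega)
  omega

/-- the parabolic orbit has `1 + m q` elements with `m ≥ 1` -/
theorem card_orbF_eq (q : ℕ) (hq : (univ.filter (· ∈ U)).card = q) :
    ∃ m, 1 ≤ m ∧ (orbF Γ x₀).card = 1 + m * q := by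
  have hdvd : (univ.filter (· ∈ U)).card ∣ ((orbF Γ x₀).erase x₀).card := by
    apply card_dvd_of_free U
    · intro u hu x hx
      rw [mem_erase] at hx ⊢
      obtain ⟨g, rfl⟩ := mem_orbF.1 hx.2
      refine ⟨fun h => hx.1 ?_, mem_orbF.2 ⟨u * g, mul_smul _ _ _⟩⟩
      have h2 : u⁻¹ • x₀ = x₀ := S.U_le_stab (U.inv_mem hu)
      have h3 : g • x₀ = u⁻¹ • x₀ := by rw [eq_inv_smul_iff]; exact h
      rw [h3, h2]
    · intro u hu hu1 x hx h
      exact (mem_erase.1 hx).1 ((S.hU u hu hu1 x).1 h)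
  rw [hq, Finset.card_erase_of_mem (self_mem_orbF x₀)] at hdvd
  obtain ⟨m, hm⟩ := hdvd
  have hN2 : 2 ≤ (orbF Γ x₀).card := by
    obtain ⟨k, hk⟩ := S.hmove
    have : 1 < (orbF Γ x₀).card :=
      Finset.one_lt_card.2 ⟨k • x₀, mem_orbF.2 ⟨k, rfl⟩, x₀, self_mem_orbF x₀, hk⟩
    omega
  refine ⟨m, ?_, by rw [mul_comm m q]; omega⟩
  rcases Nat.eq_zero_or_pos m with h0 | h0
  · rw [h0] at hm; omega
  · exact h0

/-- **Main counting theorem** (finset form). -/
theorem main_finset (z q e : ℕ) (hz : (univ.filter (· ∈ Z)).card = z)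
    (hq : (univ.filter (· ∈ U)).card = q) (hstab : (stabF Γ x₀).card = z * q * e)
    (he : e ≤ q - 1) (hq3 : 3 < q) :
    (orbF Γ x₀).card = q + 1 ∧ (q - 1) ∣ 2 * e ∧
    ∀ y, y ∈ S.Xsp → y ∉ orbF Γ x₀ → (stabF Γ y).card * (q - 1) = z * e * (q + 1) := by
  have hq2 : 2 ≤ q := by omega
  have hzpos : 0 < z := hz ▸ card_Z_pos
  obtain ⟨m, hm1, hN⟩ := S.card_orbF_eq q hq
  have hG := card_orbF_mul_card_stabF (Γ := Γ) x₀
  rw [hstab] at hG
  have hepos : 1 ≤ e := by
    rcases Nat.eq_zero_or_pos e with h0 | h0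
    · rw [h0] at hG
      have : 0 < Fintype.card Γ := Fintype.card_pos
      simp at hG
      omega
    · exact h0
  -- every special orbit outside has the same size, and its stabiliser has order `z k`
  have key : ∀ y, y ∈ S.Xsp \ orbF Γ x₀ → ∃ k, (stabF Γ y).card = z * k ∧
      ((orbF Γ x₀).card * (q - 2) + 2) * k = (orbF Γ x₀).card * q * e := by
    intro y hy
    have hR := S.card_orbF_of_mem_T z q e hz hq hstab hq2 hy
    obtain ⟨k, -, hk, -⟩ := S.stab_facts (mem_sdiff.1 hy).1 z hz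
    refine ⟨k, hk, ?_⟩
    have h1 := card_orbF_mul_card_stabF (Γ := Γ) y
    rw [hR, hk, ← hG] at h1
    have h2 : z * (((orbF Γ x₀).card * (q - 2) + 2) * k) = z * ((orbF Γ x₀).card * q * e) := by
      calc z * (((orbF Γ x₀).card * (q - 2) + 2) * k)
          = ((orbF Γ x₀).card * (q - 2) + 2) * (z * k) := by ring
        _ = (orbF Γ x₀).card * (z * q * e) := h1
        _ = z * ((orbF Γ x₀).card * q * e) := by ring
    exact Nat.eq_of_mul_eq_mul_left hzpos h2
  obtain ⟨y, hy⟩ := S.exists_mem_T z q e hz hq hstab hq2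
  obtain ⟨k, -, hk⟩ := key y hy
  have harith := dickson_arith q e m (orbF Γ x₀).card ((orbF Γ x₀).card * q * e)
    (2 + (orbF Γ x₀).card * (q - 2)) hq3 hm1 hepos he hN rfl rfl
    ⟨k, by rw [← hk]; ring⟩
  obtain ⟨rfl, hdiv⟩ := harith
  have hN' : (orbF Γ x₀).card = q + 1 := by omega
  refine ⟨hN', hdiv, ?_⟩
  intro y' hy' hy'2
  obtain ⟨k', hk'1, hk'2⟩ := key y' (mem_sdiff.2 ⟨hy', hy'2⟩)
  rw [hN'] at hk'2
  obtain ⟨q', rfl⟩ : ∃ q', q = q' + 2 := ⟨q - 2, by omega⟩
  rw [show q' + 2 - 2 = q' by omega] at hk'2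
  rw [show q' + 2 - 1 = q' + 1 by omega, hk'1]
  have h3 : (q' + 2) * ((q' + 1) * k') = (q' + 2) * ((q' + 2 + 1) * e) := by
    have : (q' + 2 + 1) * q' + 2 = (q' + 2) * (q' + 1) := by ring
    rw [this] at hk'2
    rw [← mul_assoc, hk'2]; ring
  have h4 := Nat.eq_of_mul_eq_mul_left (by omega) h3
  calc z * k' * (q' + 1) = z * ((q' + 1) * k') := by ring
    _ = z * ((q' + 2 + 1) * e) := by rw [h4]
    _ = z * e * (q' + 2 + 1) := by ring

end Setup

end Main

section Wrapper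

variable {Γ X : Type*} [Group Γ] [MulAction Γ X]

theorem natCard_subgroup [Fintype Γ] (H : Subgroup Γ) :
    Nat.card H = (univ.filter (· ∈ H)).card := by
  rw [Nat.card_eq_fintype_card, ← Fintype.card_subtype]

theorem natCard_stabilizer [Fintype Γ] (y : X) :
    Nat.card (MulAction.stabilizer Γ y) = (stabF Γ y).card := by
  rw [natCard_subgroup]
  congr 1

theorem natCard_orbit [Fintype Γ] (y : X) :
    Nat.card (MulAction.orbit Γ y) = (orbF Γ y).card := by
  have h : MulAction.orbit Γ y = ↑(orbF Γ y) := by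
    ext x
    rw [Finset.mem_coe, mem_orbF, MulAction.mem_orbit_iff]
  rw [h, Nat.card_coe_set_eq, Set.ncard_coe_finset]

/-- **Dickson's counting theorem**, `Nat.card` form.  `Γ` finite group acting on `X`, `Z` the
kernel of the action, every element outside `Z` has one or two fixed points, `U` a subgroup of
order `q > 3` whose non-trivial elements fix exactly `x₀`, the stabiliser of `x₀` has order
`z q e` with `e ≤ q - 1`, every one-fixed-point element fixes a point of the orbit of `x₀`, and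
those in the stabiliser of `x₀` are the elements of `Z U` outside `Z`.  Then the orbit of `x₀` has
`q + 1` points, `(q - 1) ∣ 2 e`, and every other point with non-central stabiliser has a
stabiliser of order `z e (q + 1) / (q - 1)`. -/
theorem dickson_count [Finite Γ] (Z U : Subgroup Γ) (x₀ : X) (S : Setup (X := X) Z U x₀)
    (z q e : ℕ) (hz : Nat.card Z = z) (hq : Nat.card U = q)
    (hstab : Nat.card (MulAction.stabilizer Γ x₀) = z * q * e)
    (he : e ≤ q - 1) (hq3 : 3 < q) :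
    Nat.card (MulAction.orbit Γ x₀) = q + 1 ∧ (q - 1) ∣ 2 * e ∧
    ∀ y : X, (∃ γ : Γ, γ ∉ Z ∧ γ • y = y) → y ∉ MulAction.orbit Γ x₀ →
      Nat.card (MulAction.stabilizer Γ y) * (q - 1) = z * e * (q + 1) := by
  have := Fintype.ofFinite Γ
  rw [natCard_subgroup] at hz hq
  rw [natCard_stabilizer] at hstab
  obtain ⟨h1, h2, h3⟩ := S.main_finset z q e hz hq hstab he hq3
  refine ⟨by rw [natCard_orbit]; exact h1, h2, ?_⟩
  intro y hy hy2
  rw [natCard_stabilizer]
  apply h3 y (S.mem_Xsp.2 hy)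
  intro hcon
  apply hy2
  obtain ⟨g, hg⟩ := mem_orbF.1 hcon
  exact MulAction.mem_orbit_iff.2 ⟨g, hg⟩

end Wrapper

end

end Fermat.Agent.TW.Select.DicksonCount40
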