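/-
TW / WP8 (helper75): lines in `F²`, stable lines of a 2-dimensional representation (Mathlib only).
-/
import Mathlib

set_option autoImplicit false

namespace Fermat.Agent.TW.Select.Lines75

open Matrix

variable {F : Type*} [Field F]

/-- The determinant of the pair `(v, w)` of vectors of `F²`. -/
def wedge (v w : Fin 2 → F) : F := v 0 * w 1 - v 1 * w 0

theorem wedge_self (v : Fin 2 → F) : wedge v v = 0 := by
  unfold wedge; ring

theorem wedge_swap (v w : Fin 2 → F) : wedge w v = - wedge v w := by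
  unfold wedge; ring

theorem wedge_smul_right (c : F) (v w : Fin 2 → F) : wedge v (c • w) = c * wedge v w := by
  simp only [wedge, Pi.smul_apply, smul_eq_mul]; ring

theorem wedge_smul_left (c : F) (v w : Fin 2 → F) : wedge (c • v) w = c * wedge v w := by
  simp only [wedge, Pi.smul_apply, smul_eq_mul]; ring

theorem wedge_add_right (v w w' : Fin 2 → F) : wedge v (w + w') = wedge v w + wedge v w' := by
  simp only [wedge, Pi.add_apply]; ring

theorem wedge_add_left (v v' w : Fin 2 → F) : wedge (v + v') w = wedge v w + wedge v' w := by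
  simp only [wedge, Pi.add_apply]; ring

theorem ne_zero_of_wedge_ne_zero_left {v w : Fin 2 → F} (h : wedge v w ≠ 0) : v ≠ 0 := by
  rintro rfl; apply h; simp [wedge]

theorem ne_zero_of_wedge_ne_zero_right {v w : Fin 2 → F} (h : wedge v w ≠ 0) : w ≠ 0 := by
  rintro rfl; apply h; simp [wedge]

theorem exists_coord_ne_zero {v : Fin 2 → F} (hv : v ≠ 0) : v 0 ≠ 0 ∨ v 1 ≠ 0 := by
  by_contra h
  push Not at h
  apply hv
  funext i
  fin_cases i
  · exact h.1
  · exact h.2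

/-- Two vectors with vanishing determinant are proportional. -/
theorem exists_smul_of_wedge_eq_zero {v w : Fin 2 → F} (hv : v ≠ 0) (h : wedge v w = 0) :
    ∃ c : F, w = c • v := by
  unfold wedge at h
  rcases exists_coord_ne_zero hv with h0 | h1
  · refine ⟨w 0 / v 0, ?_⟩
    funext i
    fin_cases i
    · simp only [Fin.zero_eta, Fin.isValue, Pi.smul_apply, smul_eq_mul]
      field_simp
    · simp only [Fin.mk_one, Fin.isValue, Pi.smul_apply, smul_eq_mul]
      field_simp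
      linear_combination h
  · refine ⟨w 1 / v 1, ?_⟩
    funext i
    fin_cases i
    · simp only [Fin.zero_eta, Fin.isValue, Pi.smul_apply, smul_eq_mul]
      field_simp
      linear_combination -h
    · simp only [Fin.mk_one, Fin.isValue, Pi.smul_apply, smul_eq_mul]
      field_simp

theorem wedge_eq_zero_of_smul {v w : Fin 2 → F} {c : F} (h : w = c • v) : wedge v w = 0 := by
  rw [h, wedge_smul_right, wedge_self, mul_zero]

/-- Cramer's rule in `F²`. -/
theorem eq_lincomb_of_wedge_ne_zero {v w : Fin 2 → F} (h : wedge v w ≠ 0) (u : Fin 2 → F) :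
    u = (wedge u w / wedge v w) • v + (wedge v u / wedge v w) • w := by
  funext i
  simp only [Pi.add_apply, Pi.smul_apply, smul_eq_mul]
  rw [div_mul_eq_mul_div, div_mul_eq_mul_div, ← add_div, eq_div_iff h]
  fin_cases i <;> simp only [wedge, Fin.zero_eta, Fin.mk_one, Fin.isValue] <;> ring

theorem wedge_mulVec (M : Matrix (Fin 2) (Fin 2) F) (v w : Fin 2 → F) :
    wedge (M *ᵥ v) (M *ᵥ w) = det M * wedge v w := by
  simp only [wedge, Matrix.mulVec, dotProduct, Fin.sum_univ_two, det_fin_two]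
  ring

/-- Over an algebraically closed field every 2×2 matrix has an eigenvector. -/
theorem exists_eigenvector [IsAlgClosed F] (M : Matrix (Fin 2) (Fin 2) F) :
    ∃ v : Fin 2 → F, v ≠ 0 ∧ ∃ c : F, M *ᵥ v = c • v := by
  obtain ⟨c, hc⟩ := Module.End.exists_eigenvalue (Matrix.mulVecLin M)
  obtain ⟨v, hv⟩ := hc.exists_hasEigenvector
  exact ⟨v, hv.2, c, by simpa using hv.apply_eq_smul⟩

/-- The kernel of a nonzero 2×2 matrix is at most a line. -/
theorem exists_smul_of_mulVec_eq_zero {N : Matrix (Fin 2) (Fin 2) F} (hN : N ≠ 0)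
    {v w : Fin 2 → F} (hv : v ≠ 0) (hNv : N *ᵥ v = 0) (hNw : N *ᵥ w = 0) :
    ∃ c : F, w = c • v := by
  apply exists_smul_of_wedge_eq_zero hv
  by_contra hne
  apply hN
  -- `N` kills a basis
  ext i j
  have hu := eq_lincomb_of_wedge_ne_zero hne (Pi.single j 1)
  have : N *ᵥ (Pi.single j 1) = 0 := by
    rw [hu, Matrix.mulVec_add, Matrix.mulVec_smul, Matrix.mulVec_smul, hNv, hNw, smul_zero,
      smul_zero, add_zero]
  have h2 := congrFun this i
  simpa using h2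


/-- A matrix with three pairwise independent eigenvectors is scalar. -/
theorem mulVec_eq_smul_of_three_eigenvectors {M : Matrix (Fin 2) (Fin 2) F}
    {v₁ v₂ v₃ : Fin 2 → F} {c₁ c₂ c₃ : F} (h12 : wedge v₁ v₂ ≠ 0) (h13 : wedge v₁ v₃ ≠ 0)
    (h23 : wedge v₂ v₃ ≠ 0) (h1 : M *ᵥ v₁ = c₁ • v₁) (h2 : M *ᵥ v₂ = c₂ • v₂)
    (h3 : M *ᵥ v₃ = c₃ • v₃) (w : Fin 2 → F) : M *ᵥ w = c₁ • w := by
  -- write `v₃ = a v₁ + b v₂`
  have hv3 := eq_lincomb_of_wedge_ne_zero h12 v₃
  set a := wedge v₃ v₂ / wedge v₁ v₂ with ha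
  set b := wedge v₁ v₃ / wedge v₁ v₂ with hb
  have ha0 : a ≠ 0 := by
    rw [ha, wedge_swap v₂ v₃]
    exact div_ne_zero (neg_ne_zero.mpr h23) h12
  have hb0 : b ≠ 0 := div_ne_zero h13 h12
  have hM3 : M *ᵥ v₃ = (a * c₁) • v₁ + (b * c₂) • v₂ := by
    conv_lhs => rw [hv3]
    rw [Matrix.mulVec_add, Matrix.mulVec_smul, Matrix.mulVec_smul, h1, h2, smul_smul, smul_smul]
  have hM3' : M *ᵥ v₃ = (c₃ * a) • v₁ + (c₃ * b) • v₂ := by
    rw [h3]
    conv_lhs => rw [hv3]
    rw [smul_add, smul_smul, smul_smul]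
  have heq := hM3.symm.trans hM3'
  -- compare coefficients
  have e1 : a * c₁ = c₃ * a := by
    have := congrArg (fun u => wedge u v₂) heq
    simp only [wedge_add_left, wedge_smul_left, wedge_self, mul_zero, add_zero] at this
    exact mul_right_cancel₀ h12 this
  have e2 : b * c₂ = c₃ * b := by
    have := congrArg (fun u => wedge v₁ u) heq
    simp only [wedge_add_right, wedge_smul_right, wedge_self, mul_zero, zero_add] at this
    exact mul_right_cancel₀ h12 this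
  have hc13 : c₁ = c₃ := by
    have : a * c₁ = a * c₃ := by rw [e1, mul_comm]
    exact mul_left_cancel₀ ha0 this
  have hc23 : c₂ = c₃ := by
    have : b * c₂ = b * c₃ := by rw [e2, mul_comm]
    exact mul_left_cancel₀ hb0 this
  have hw := eq_lincomb_of_wedge_ne_zero h12 w
  conv_lhs => rw [hw]
  rw [Matrix.mulVec_add, Matrix.mulVec_smul, Matrix.mulVec_smul, h1, h2, hc23, ← hc13]
  conv_rhs => rw [hw]
  rw [smul_add, smul_comm c₁, smul_comm c₁]

section Rep

variable {Γ : Type*} [Group Γ]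

/-- `v` is a nonzero vector spanning a line stable under `ρ g` for all `g ∈ S`. -/
def IsStableVec (ρ : Γ →* GL (Fin 2) F) (S : Set Γ) (v : Fin 2 → F) : Prop :=
  v ≠ 0 ∧ ∀ g ∈ S, ∃ c : F, (ρ g : Matrix (Fin 2) (Fin 2) F) *ᵥ v = c • v

/-- No line of `F²` is stable under `ρ g` for all `g ∈ S`. -/
def NoStableLine (ρ : Γ →* GL (Fin 2) F) (S : Set Γ) : Prop :=
  ∀ v : Fin 2 → F, ¬ IsStableVec ρ S v

theorem NoStableLine.mono {ρ : Γ →* GL (Fin 2) F} {S T : Set Γ} (hST : S ⊆ T)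
    (h : NoStableLine ρ S) : NoStableLine ρ T :=
  fun v hv => h v ⟨hv.1, fun g hg => hv.2 g (hST hg)⟩

theorem mulVec_ne_zero (g : GL (Fin 2) F) {v : Fin 2 → F} (hv : v ≠ 0) :
    (g : Matrix (Fin 2) (Fin 2) F) *ᵥ v ≠ 0 := by
  intro h
  apply hv
  have h2 : ((g⁻¹ : GL (Fin 2) F) : Matrix (Fin 2) (Fin 2) F) *ᵥ
      ((g : Matrix (Fin 2) (Fin 2) F) *ᵥ v) = v := by
    rw [Matrix.mulVec_mulVec, ← Units.val_mul, inv_mul_cancel, Units.val_one, Matrix.one_mulVec]
  rw [h, Matrix.mulVec_zero] at h2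
  exact h2.symm

theorem coe_mul_mulVec (g h : GL (Fin 2) F) (v : Fin 2 → F) :
    ((g * h : GL (Fin 2) F) : Matrix (Fin 2) (Fin 2) F) *ᵥ v =
      (g : Matrix (Fin 2) (Fin 2) F) *ᵥ ((h : Matrix (Fin 2) (Fin 2) F) *ᵥ v) := by
  rw [Units.val_mul, Matrix.mulVec_mulVec]

/-- The stabiliser of the line spanned by `v`. -/
def lineStab (ρ : Γ →* GL (Fin 2) F) (v : Fin 2 → F) (hv : v ≠ 0) : Subgroup Γ where
  carrier := {g | ∃ c : F, (ρ g : Matrix (Fin 2) (Fin 2) F) *ᵥ v = c • v}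
  mul_mem' := by
    rintro g h ⟨c, hc⟩ ⟨d, hd⟩
    refine ⟨d * c, ?_⟩
    rw [map_mul, coe_mul_mulVec, hd, Matrix.mulVec_smul, hc, smul_smul]
  one_mem' := ⟨1, by simp⟩
  inv_mem' := by
    rintro g ⟨c, hc⟩
    have hc0 : c ≠ 0 := by
      rintro rfl
      rw [zero_smul] at hc
      exact mulVec_ne_zero (ρ g) hv hc
    refine ⟨c⁻¹, ?_⟩
    have h1 : ((ρ g⁻¹ : GL (Fin 2) F) : Matrix (Fin 2) (Fin 2) F) *ᵥ
        ((ρ g : Matrix (Fin 2) (Fin 2) F) *ᵥ v) = v := by
      rw [← coe_mul_mulVec, ← map_mul, inv_mul_cancel, map_one]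
      simp
    rw [hc, Matrix.mulVec_smul] at h1
    calc ((ρ g⁻¹ : GL (Fin 2) F) : Matrix (Fin 2) (Fin 2) F) *ᵥ v
        = c⁻¹ • (c • (((ρ g⁻¹ : GL (Fin 2) F) : Matrix (Fin 2) (Fin 2) F) *ᵥ v)) := by
          rw [smul_smul, inv_mul_cancel₀ hc0, one_smul]
      _ = c⁻¹ • v := by rw [h1]

theorem mem_lineStab {ρ : Γ →* GL (Fin 2) F} {v : Fin 2 → F} {hv : v ≠ 0} {g : Γ} :
    g ∈ lineStab ρ v hv ↔ ∃ c : F, (ρ g : Matrix (Fin 2) (Fin 2) F) *ᵥ v = c • v := Iff.rfl

theorem isStableVec_lineStab (ρ : Γ →* GL (Fin 2) F) (v : Fin 2 → F) (hv : v ≠ 0) :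
    IsStableVec ρ (lineStab ρ v hv : Set Γ) v :=
  ⟨hv, fun _ hg => hg⟩

theorem IsStableVec.le_lineStab {ρ : Γ →* GL (Fin 2) F} {H : Subgroup Γ} {v : Fin 2 → F}
    (h : IsStableVec ρ (H : Set Γ) v) : H ≤ lineStab ρ v h.1 :=
  fun g hg => h.2 g hg

/-- Translating a vector stable under a normal subgroup gives a stable vector. -/
theorem IsStableVec.translate {ρ : Γ →* GL (Fin 2) F} {H : Subgroup Γ} [H.Normal]
    {v : Fin 2 → F} (h : IsStableVec ρ (H : Set Γ) v) (γ : Γ) :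
    IsStableVec ρ (H : Set Γ) ((ρ γ : Matrix (Fin 2) (Fin 2) F) *ᵥ v) := by
  refine ⟨mulVec_ne_zero _ h.1, fun g hg => ?_⟩
  have hconj : γ⁻¹ * g * γ ∈ H := by
    have := ‹H.Normal›.conj_mem g hg γ⁻¹
    simpa using this
  obtain ⟨c, hc⟩ := h.2 _ hconj
  refine ⟨c, ?_⟩
  have e : g * γ = γ * (γ⁻¹ * g * γ) := by group
  rw [← coe_mul_mulVec, ← map_mul, e, map_mul, coe_mul_mulVec, hc, Matrix.mulVec_smul]

end Rep

end Fermat.Agent.TW.Select.Lines75
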