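/-
TW / WP8 (helper75): a Clifford-type lemma for 2-dimensional representations (Mathlib only).

If `ρ : Γ → GL₂(F)` (`F` algebraically closed) has no stable line on `Γ` nor on any subgroup of
index two, and `H` is a normal subgroup of `Γ` with cyclic quotient, then `ρ` has no stable line
on `H`.
-/
import Fermat.Agent.TW.Select.Lines75

set_option autoImplicit false

namespace Fermat.Agent.TW.Select.Clifford75

open Matrix Fermat.Agent.TW.Select.Lines75

variable {F : Type*} [Field F] {Γ : Type*} [Group Γ]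

/-- A normal subgroup with cyclic quotient admits a "generator modulo `H`". -/
theorem exists_generator_mod (H : Subgroup Γ) [H.Normal] [IsCyclic (Γ ⧸ H)] :
    ∃ g₀ : Γ, ∀ γ : Γ, ∃ n : ℤ, ∃ h ∈ H, γ = g₀ ^ n * h := by
  obtain ⟨g, hg⟩ := IsCyclic.exists_generator (α := Γ ⧸ H)
  obtain ⟨g₀, rfl⟩ := QuotientGroup.mk_surjective g
  refine ⟨g₀, fun γ => ?_⟩
  obtain ⟨n, hn⟩ := Subgroup.mem_zpowers_iff.mp (hg (γ : Γ ⧸ H))
  have h1 : ((g₀ ^ n : Γ) : Γ ⧸ H) = (γ : Γ ⧸ H) := by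
    rw [QuotientGroup.mk_zpow]; exact hn
  have h2 : (g₀ ^ n)⁻¹ * γ ∈ H := QuotientGroup.eq.mp h1
  exact ⟨n, _, h2, by group⟩

/-- If the line through `v` is stable under `H` and under a generator of `Γ` modulo `H`, it is
stable under `Γ`. -/
theorem lineStab_eq_top {ρ : Γ →* GL (Fin 2) F} {H : Subgroup Γ} {g₀ : Γ}
    (hgen : ∀ γ : Γ, ∃ n : ℤ, ∃ h ∈ H, γ = g₀ ^ n * h) {v : Fin 2 → F} (hv : v ≠ 0)
    (hH : H ≤ lineStab ρ v hv) (hg₀ : g₀ ∈ lineStab ρ v hv) : lineStab ρ v hv = ⊤ := by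
  rw [eq_top_iff]
  intro γ _
  obtain ⟨n, h, hh, rfl⟩ := hgen γ
  exact Subgroup.mul_mem _ (Subgroup.zpow_mem _ hg₀ n) (hH hh)

theorem not_stable_of_noStableLine {ρ : Γ →* GL (Fin 2) F} (hirr : NoStableLine ρ Set.univ)
    {v : Fin 2 → F} (hv : v ≠ 0) : lineStab ρ v hv ≠ ⊤ := by
  intro h
  refine hirr v ⟨hv, fun g _ => ?_⟩
  have : g ∈ lineStab ρ v hv := by rw [h]; trivial
  exact this

/-- **Clifford-type lemma.** -/
theorem noStableLine_of_isCyclic_quotient [IsAlgClosed F] (ρ : Γ →* GL (Fin 2) F)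
    (H : Subgroup Γ) [H.Normal] [IsCyclic (Γ ⧸ H)]
    (hirr : NoStableLine ρ Set.univ)
    (hTW : ∀ Γ₂ : Subgroup Γ, Γ₂.index = 2 → NoStableLine ρ (Γ₂ : Set Γ)) :
    NoStableLine ρ (H : Set Γ) := by
  intro v₁ hst₁
  obtain ⟨g₀, hgen⟩ := exists_generator_mod H
  have hv₁ : v₁ ≠ 0 := hst₁.1
  have hH₁ := hst₁.le_lineStab
  -- `g₀` does not stabilise the line of `v₁`
  have hg₁ : g₀ ∉ lineStab ρ v₁ hv₁ := fun h =>
    not_stable_of_noStableLine hirr hv₁ (lineStab_eq_top hgen hv₁ hH₁ h)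
  set v₂ : Fin 2 → F := (ρ g₀ : Matrix (Fin 2) (Fin 2) F) *ᵥ v₁ with hv₂def
  have hst₂ : IsStableVec ρ (H : Set Γ) v₂ := hst₁.translate g₀
  have hv₂ : v₂ ≠ 0 := hst₂.1
  have h12 : wedge v₁ v₂ ≠ 0 := by
    intro h
    obtain ⟨c, hc⟩ := exists_smul_of_wedge_eq_zero hv₁ h
    exact hg₁ ⟨c, hc⟩
  have hg₂ : g₀ ∉ lineStab ρ v₂ hv₂ := fun h =>
    not_stable_of_noStableLine hirr hv₂ (lineStab_eq_top hgen hv₂ hst₂.le_lineStab h)
  set v₃ : Fin 2 → F := (ρ g₀ : Matrix (Fin 2) (Fin 2) F) *ᵥ v₂ with hv₃def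
  have hst₃ : IsStableVec ρ (H : Set Γ) v₃ := hst₂.translate g₀
  have h23 : wedge v₂ v₃ ≠ 0 := by
    intro h
    obtain ⟨c, hc⟩ := exists_smul_of_wedge_eq_zero hv₂ h
    exact hg₂ ⟨c, hc⟩
  by_cases h13 : wedge v₁ v₃ = 0
  · -- `g₀` swaps the two lines: the stabiliser of the first has index two
    obtain ⟨c, hc⟩ := exists_smul_of_wedge_eq_zero hv₁ h13
    have hsq : g₀ ^ 2 ∈ lineStab ρ v₁ hv₁ := by
      refine ⟨c, ?_⟩
      rw [pow_two, map_mul, coe_mul_mulVec]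
      exact hc
    have hpow : ∀ n : ℤ, g₀ ^ n ∈ lineStab ρ v₁ hv₁ ↔ Even n := by
      intro n
      rcases Int.even_or_odd n with he | ho
      · obtain ⟨m, rfl⟩ := he
        refine ⟨fun _ => ⟨m, rfl⟩, fun _ => ?_⟩
        have : g₀ ^ (m + m) = (g₀ ^ 2) ^ m := by
          rw [← zpow_natCast, ← _root_.zpow_mul]; congr 1; ring
        rw [this]
        exact Subgroup.zpow_mem _ hsq m
      · obtain ⟨m, rfl⟩ := ho
        constructor
        · intro hmem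
          exfalso
          apply hg₁
          have e : g₀ = ((g₀ ^ 2) ^ m)⁻¹ * g₀ ^ (2 * m + 1) := by
            have : (g₀ ^ 2) ^ m = g₀ ^ (2 * m) := by
              rw [← zpow_natCast, ← _root_.zpow_mul]; rfl
            rw [this, _root_.zpow_add, zpow_one]; group
          rw [e]
          exact Subgroup.mul_mem _ (Subgroup.inv_mem _ (Subgroup.zpow_mem _ hsq m)) hmem
        · intro he
          exact absurd he (Int.not_even_iff_odd.mpr ⟨m, rfl⟩)
    have hidx : (lineStab ρ v₁ hv₁).index = 2 := by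
      rw [Subgroup.index_eq_two_iff]
      refine ⟨g₀, fun b => ?_⟩
      obtain ⟨n, h, hh, rfl⟩ := hgen b
      have hb : g₀ ^ n * h ∈ lineStab ρ v₁ hv₁ ↔ Even n := by
        rw [← hpow n]
        exact Subgroup.mul_mem_cancel_right _ (hH₁ hh)
      have hconj : g₀⁻¹ * h * g₀ ∈ H := by
        have := ‹H.Normal›.conj_mem h hh g₀⁻¹
        simpa using this
      have hb' : g₀ ^ n * h * g₀ ∈ lineStab ρ v₁ hv₁ ↔ Even (n + 1) := by
        have e : g₀ ^ n * h * g₀ = g₀ ^ (n + 1) * (g₀⁻¹ * h * g₀) := by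
          rw [_root_.zpow_add, zpow_one]; group
        rw [e, ← hpow (n + 1)]
        exact Subgroup.mul_mem_cancel_right _ (hH₁ hconj)
      rw [hb, hb', Int.even_add_one]
      by_cases he : Even n
      · exact Or.inr ⟨he, fun h => h he⟩
      · exact Or.inl ⟨he, he⟩
    exact hTW _ hidx v₁ (isStableVec_lineStab ρ v₁ hv₁)
  · -- three distinct `H`-stable lines: `H` acts by scalars
    obtain ⟨w, hw, c, hc⟩ := exists_eigenvector (ρ g₀ : Matrix (Fin 2) (Fin 2) F)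
    have hHw : H ≤ lineStab ρ w hw := by
      intro h hh
      obtain ⟨c₁, hc₁⟩ := hst₁.2 h hh
      obtain ⟨c₂, hc₂⟩ := hst₂.2 h hh
      obtain ⟨c₃, hc₃⟩ := hst₃.2 h hh
      exact ⟨c₁, mulVec_eq_smul_of_three_eigenvectors h12 h13 h23 hc₁ hc₂ hc₃ w⟩
    exact not_stable_of_noStableLine hirr hw (lineStab_eq_top hgen hw hHw ⟨c, hc⟩)

end Fermat.Agent.TW.Select.Clifford75
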