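/-
TW / WP8 (helper75): nilpotent and unipotent 2×2 matrices, commutator determinants and a
hands-on Burnside lemma for 2-dimensional representations (Mathlib only).
-/
import Fermat.Agent.TW.Select.Lines75

set_option autoImplicit false

namespace Fermat.Agent.TW.Select.Nilp75

open Matrix Fermat.Agent.TW.Select.Lines75

variable {F : Type*} [Field F]

/-! ### Square-zero matrices -/

theorem det_eq_zero_of_sq_eq_zero {n : Matrix (Fin 2) (Fin 2) F} (hn : n * n = 0) : det n = 0 := by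
  have h : det n * det n = 0 := by rw [← det_mul, hn, det_zero]
  exact mul_self_eq_zero.mp h

theorem trace_eq_zero_of_sq_eq_zero {n : Matrix (Fin 2) (Fin 2) F} (hn : n * n = 0) :
    trace n = 0 := by
  have hd := det_eq_zero_of_sq_eq_zero hn
  rw [det_fin_two] at hd
  have h00 := congrFun (congrFun hn 0) 0
  have h11 := congrFun (congrFun hn 1) 1
  simp only [Matrix.mul_apply, Fin.sum_univ_two, Matrix.zero_apply] at h00 h11
  rw [trace_fin_two]
  have h : (n 0 0 + n 1 1) ^ 2 = 0 := by grind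
  exact pow_eq_zero_iff (two_ne_zero) |>.mp h

/-- For a square-zero 2×2 matrix `n`, `n w n = tr(w n) n`. -/
theorem sq_zero_mul_mul (n w : Matrix (Fin 2) (Fin 2) F) (hn : n * n = 0) :
    n * w * n = trace (w * n) • n := by
  have hd := det_eq_zero_of_sq_eq_zero hn
  have ht := trace_eq_zero_of_sq_eq_zero hn
  rw [det_fin_two] at hd
  rw [trace_fin_two] at ht
  ext i j
  fin_cases i <;> fin_cases j <;>
    simp only [Matrix.mul_apply, Matrix.smul_apply, Fin.sum_univ_two, trace_fin_two,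
      smul_eq_mul, Fin.zero_eta, Fin.mk_one, Fin.isValue] <;>
    grind

/-- The kernel of a nonzero square-zero matrix is its image: if `n v = 0`, `v ≠ 0`, there is `x`
with `n x = v`. -/
theorem exists_mulVec_eq_of_sq_zero {n : Matrix (Fin 2) (Fin 2) F} (hn : n * n = 0) (hn0 : n ≠ 0)
    {v : Fin 2 → F} (hnv : n *ᵥ v = 0) : ∃ x : Fin 2 → F, n *ᵥ x = v := by
  -- some `y` has `n y ≠ 0`
  obtain ⟨y, hy⟩ : ∃ y : Fin 2 → F, n *ᵥ y ≠ 0 := by
    by_contra h
    push Not at h
    apply hn0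
    ext i j
    have := congrFun (h (Pi.single j 1)) i
    simpa using this
  have h2 : n *ᵥ (n *ᵥ y) = 0 := by rw [Matrix.mulVec_mulVec, hn, Matrix.zero_mulVec]
  obtain ⟨c, hc⟩ := exists_smul_of_mulVec_eq_zero hn0 hy h2 hnv
  exact ⟨c • y, by rw [Matrix.mulVec_smul, hc]⟩

/-- If `tr(g n) = 0` for a nonzero square-zero `n`, then `g` stabilises the kernel of `n`. -/
theorem exists_smul_of_trace_mul_eq_zero {n g : Matrix (Fin 2) (Fin 2) F} (hn : n * n = 0)
    (hn0 : n ≠ 0) {v : Fin 2 → F} (hv : v ≠ 0) (hnv : n *ᵥ v = 0) (ht : trace (g * n) = 0) :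
    ∃ c : F, g *ᵥ v = c • v := by
  obtain ⟨x, hx⟩ := exists_mulVec_eq_of_sq_zero hn hn0 hnv
  have h1 : n * g * n = 0 := by rw [sq_zero_mul_mul n g hn, ht, zero_smul]
  have h2 : n *ᵥ (g *ᵥ v) = 0 := by
    rw [← hx, Matrix.mulVec_mulVec, Matrix.mulVec_mulVec, h1, Matrix.zero_mulVec]
  exact exists_smul_of_mulVec_eq_zero hn0 hv hnv h2

/-! ### Unipotent matrices -/

/-- `M` is unipotent: `(M - 1)² = 0`. -/
def IsUnip (M : Matrix (Fin 2) (Fin 2) F) : Prop := (M - 1) * (M - 1) = 0

theorem isUnip_one : IsUnip (1 : Matrix (Fin 2) (Fin 2) F) := by simp [IsUnip]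

theorem IsUnip.trace_eq {M : Matrix (Fin 2) (Fin 2) F} (h : IsUnip M) : trace M = 2 := by
  have := trace_eq_zero_of_sq_eq_zero h
  rw [trace_sub, trace_one, Fintype.card_fin] at this
  have h2 : trace M = ((2 : ℕ) : F) := sub_eq_zero.mp this
  rw [h2]; norm_num

/-- A non-scalar matrix of determinant one and discriminant zero has a nontrivial unipotent
square (characteristic `≠ 2`). -/
theorem isUnip_sq_of_discr_eq_zero (h2 : (2 : F) ≠ 0) {M : Matrix (Fin 2) (Fin 2) F}
    (hdet : det M = 1) (hdisc : M.discr = 0) (hns : ∀ c : F, M ≠ c • 1) :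
    IsUnip (M * M) ∧ M * M ≠ 1 := by
  rw [discr_fin_two, hdet, trace_fin_two] at hdisc
  rw [det_fin_two] at hdet
  have hns' : M 0 1 ≠ 0 ∨ M 1 0 ≠ 0 ∨ M 0 0 ≠ M 1 1 := by
    by_contra h
    push Not at h
    apply hns (M 0 0)
    ext i j
    fin_cases i <;> fin_cases j <;> simp [h.1, h.2.1, h.2.2]
  -- `t = ±2`
  have ht : (M 0 0 + M 1 1 - 2) * (M 0 0 + M 1 1 + 2) = 0 := by grind
  constructor
  · unfold IsUnip
    ext i j
    fin_cases i <;> fin_cases j <;>
      simp only [Matrix.mul_apply, Matrix.sub_apply, Matrix.one_apply, Fin.sum_univ_two,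
        Fin.zero_eta, Fin.mk_one, Fin.isValue, Matrix.zero_apply] <;>
      simp <;> grind
  · intro h
    have e00 := congrFun (congrFun h 0) 0
    have e01 := congrFun (congrFun h 0) 1
    have e10 := congrFun (congrFun h 1) 0
    have e11 := congrFun (congrFun h 1) 1
    simp only [Matrix.mul_apply, Fin.sum_univ_two, Matrix.one_apply] at e00 e01 e10 e11
    simp at e00 e01 e10 e11
    -- `(a+d) b = 0`, `(a+d) c = 0`, `a² + bc = 1`, `d² + bc = 1`
    have htne : M 0 0 + M 1 1 ≠ 0 := by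
      intro h0
      rcases mul_eq_zero.mp ht with h' | h'
      · apply h2; grind
      · apply h2; grind
    have hb : M 0 1 = 0 := by
      have : (M 0 0 + M 1 1) * M 0 1 = 0 := by grind
      exact (mul_eq_zero.mp this).resolve_left htne
    have hc : M 1 0 = 0 := by
      have : (M 0 0 + M 1 1) * M 1 0 = 0 := by grind
      exact (mul_eq_zero.mp this).resolve_left htne
    have had : M 0 0 = M 1 1 := by
      have : (M 0 0 + M 1 1) * (M 0 0 - M 1 1) = 0 := by grind
      exact sub_eq_zero.mp ((mul_eq_zero.mp this).resolve_left htne)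
    rcases hns' with h' | h' | h'
    · exact h' hb
    · exact h' hc
    · exact h' had

/-! ### Commutator determinants -/

/-- If `N v₁ = 0`, the determinant of the commutator `[N, B]` factors through the two obstructions
to `B` stabilising the lines `ker N ∋ v₁` and `im N ∋ N y`. -/
theorem wedge_mul_wedge_eq (N B : Matrix (Fin 2) (Fin 2) F) (v₁ y : Fin 2 → F)
    (hN : N *ᵥ v₁ = 0) :
    wedge v₁ (B *ᵥ v₁) * wedge (N *ᵥ y) (B *ᵥ (N *ᵥ y)) =
      - (wedge v₁ y) ^ 2 * det (N * B - B * N) := by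
  have h0 : N 0 0 * v₁ 0 + N 0 1 * v₁ 1 = 0 := by
    have := congrFun hN 0
    simpa [Matrix.mulVec, dotProduct, Fin.sum_univ_two] using this
  have h1 : N 1 0 * v₁ 0 + N 1 1 * v₁ 1 = 0 := by
    have := congrFun hN 1
    simpa [Matrix.mulVec, dotProduct, Fin.sum_univ_two] using this
  simp only [wedge, Matrix.mulVec, dotProduct, Fin.sum_univ_two, det_fin_two, Matrix.sub_apply,
    Matrix.mul_apply]
  grind

/-- If `det [A, B] ≠ 0` then `1, A, B, AB` span the 2×2 matrices: a matrix orthogonal to all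
four for the trace form vanishes. -/
theorem eq_zero_of_trace_mul_eq_zero (A B w : Matrix (Fin 2) (Fin 2) F)
    (hC : det (A * B - B * A) ≠ 0)
    (h0 : trace w = 0) (h1 : trace (w * A) = 0) (h2 : trace (w * B) = 0)
    (h3 : trace (w * (A * B)) = 0) : w = 0 := by
  simp only [trace_fin_two, Matrix.mul_apply, Fin.sum_univ_two, det_fin_two,
    Matrix.sub_apply] at h0 h1 h2 h3 hC
  have key : ∀ i j, w i j * ((A 0 0 * B 0 0 + A 0 1 * B 1 0 - (B 0 0 * A 0 0 + B 0 1 * A 1 0)) *
        (A 1 0 * B 0 1 + A 1 1 * B 1 1 - (B 1 0 * A 0 1 + B 1 1 * A 1 1)) -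
      (A 0 0 * B 0 1 + A 0 1 * B 1 1 - (B 0 0 * A 0 1 + B 0 1 * A 1 1)) *
        (A 1 0 * B 0 0 + A 1 1 * B 1 0 - (B 1 0 * A 0 0 + B 1 1 * A 1 0))) = 0 := by
    intro i j
    fin_cases i <;> fin_cases j <;> simp only [Fin.zero_eta, Fin.mk_one, Fin.isValue] <;> grind
  ext i j
  exact (mul_eq_zero.mp (key i j)).resolve_right hC

end Fermat.Agent.TW.Select.Nilp75
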