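/-
TW / WP8 (helper75): "Step 3" of the Taylor–Wiles selection lemma (Mathlib only).

Let `ρ : Γ → GL₂(F)` (`F` algebraically closed, `2 ≠ 0`), `H ≤ Γ` a subgroup on which `det ρ = 1`
and with no `H`-stable line.  For every nonzero subspace `W` of trace-zero matrices stable under
conjugation by `ρ(H)` there are `σ ∈ H` with `ρ σ` regular (nonzero discriminant) and `w ∈ W`
with `tr (w ρ(σ)) ≠ 0`.
-/
import Fermat.Agent.TW.Select.Nilp75

set_option autoImplicit false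

namespace Fermat.Agent.TW.Select.Step3_75

open Matrix Fermat.Agent.TW.Select.Lines75 Fermat.Agent.TW.Select.Nilp75

variable {F : Type*} [Field F] {Γ : Type*} [Group Γ]

/-- A subgroup contained in the union of two subgroups is contained in one of them. -/
theorem le_or_le_of_le_union {H S₁ S₂ : Subgroup Γ}
    (h : ∀ g ∈ H, g ∈ S₁ ∨ g ∈ S₂) : H ≤ S₁ ∨ H ≤ S₂ := by
  by_contra hcon
  push Not at hcon
  obtain ⟨⟨a, haH, ha⟩, ⟨b, hbH, hb⟩⟩ :=
    (⟨SetLike.not_le_iff_exists.mp hcon.1, SetLike.not_le_iff_exists.mp hcon.2⟩ :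
      (∃ a ∈ H, a ∉ S₁) ∧ (∃ b ∈ H, b ∉ S₂))
  have ha2 : a ∈ S₂ := (h a haH).resolve_left ha
  have hb1 : b ∈ S₁ := (h b hbH).resolve_right hb
  rcases h (a * b) (H.mul_mem haH hbH) with h1 | h2
  · exact ha ((Subgroup.mul_mem_cancel_right S₁ hb1).mp h1)
  · exact hb ((Subgroup.mul_mem_cancel_left S₂ ha2).mp h2)

/-- **Burnside for 2×2, commutator form**: a group without stable line contains two elements
whose commutator `AB - BA` is invertible. -/
theorem exists_det_comm_ne_zero [IsAlgClosed F] (ρ : Γ →* GL (Fin 2) F) (H : Subgroup Γ)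
    (hirr : NoStableLine ρ (H : Set Γ)) :
    ∃ a ∈ H, ∃ b ∈ H, det ((ρ a : Matrix (Fin 2) (Fin 2) F) * (ρ b : Matrix (Fin 2) (Fin 2) F) -
      (ρ b : Matrix (Fin 2) (Fin 2) F) * (ρ a : Matrix (Fin 2) (Fin 2) F)) ≠ 0 := by
  by_contra hcon
  push Not at hcon
  -- some `ρ a` is not scalar
  obtain ⟨a, haH, hans⟩ : ∃ a ∈ H, ∀ c : F, (ρ a : Matrix (Fin 2) (Fin 2) F) ≠ c • 1 := by
    by_contra h
    push Not at h
    refine hirr (Pi.single 0 1) ⟨by simp, fun g hg => ?_⟩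
    obtain ⟨c, hc⟩ := h g hg
    exact ⟨c, by rw [hc, Matrix.smul_mulVec, Matrix.one_mulVec]⟩
  obtain ⟨v₁, hv₁, lam, hlam⟩ := exists_eigenvector (ρ a : Matrix (Fin 2) (Fin 2) F)
  set N : Matrix (Fin 2) (Fin 2) F := (ρ a : Matrix (Fin 2) (Fin 2) F) - lam • 1 with hN
  have hN0 : N ≠ 0 := fun h => hans lam (sub_eq_zero.mp h)
  have hNv : N *ᵥ v₁ = 0 := by
    rw [hN, Matrix.sub_mulVec, hlam, Matrix.smul_mulVec, Matrix.one_mulVec, sub_self]
  obtain ⟨y, hy⟩ : ∃ y : Fin 2 → F, N *ᵥ y ≠ 0 := by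
    by_contra h
    push Not at h
    apply hN0
    ext i j
    have := congrFun (h (Pi.single j 1)) i
    simpa using this
  have hwy : wedge v₁ y ≠ 0 := by
    intro h
    obtain ⟨c, hc⟩ := exists_smul_of_wedge_eq_zero hv₁ h
    apply hy
    rw [hc, Matrix.mulVec_smul, hNv, smul_zero]
  have hunion : ∀ b ∈ H, b ∈ lineStab ρ v₁ hv₁ ∨ b ∈ lineStab ρ (N *ᵥ y) hy := by
    intro b hb
    have hdet := hcon a haH b hb
    have hcomm : N * (ρ b : Matrix (Fin 2) (Fin 2) F) - (ρ b : Matrix (Fin 2) (Fin 2) F) * N =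
        (ρ a : Matrix (Fin 2) (Fin 2) F) * (ρ b : Matrix (Fin 2) (Fin 2) F) -
          (ρ b : Matrix (Fin 2) (Fin 2) F) * (ρ a : Matrix (Fin 2) (Fin 2) F) := by
      rw [hN, Matrix.sub_mul, Matrix.mul_sub, Matrix.smul_mul, Matrix.mul_smul, Matrix.one_mul,
        Matrix.mul_one]
      abel
    have hid := wedge_mul_wedge_eq N (ρ b : Matrix (Fin 2) (Fin 2) F) v₁ y hNv
    rw [hcomm, hdet, mul_zero] at hid
    rcases mul_eq_zero.mp hid with h1 | h2
    · left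
      obtain ⟨c, hc⟩ := exists_smul_of_wedge_eq_zero hv₁ h1
      exact ⟨c, hc⟩
    · right
      obtain ⟨c, hc⟩ := exists_smul_of_wedge_eq_zero hy h2
      exact ⟨c, hc⟩
  rcases le_or_le_of_le_union hunion with h1 | h2
  · exact hirr v₁ ⟨hv₁, fun g hg => h1 hg⟩
  · exact hirr _ ⟨hy, fun g hg => h2 hg⟩


/-! ### Square-zero pairs -/

/-- Polarised Cayley–Hamilton for square-zero matrices. -/
theorem sq_zero_anticomm (n₁ n₂ : Matrix (Fin 2) (Fin 2) F) (h1 : n₁ * n₁ = 0)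
    (h2 : n₂ * n₂ = 0) : n₁ * n₂ + n₂ * n₁ = trace (n₁ * n₂) • 1 := by
  have hd1 := det_eq_zero_of_sq_eq_zero h1
  have ht1 := trace_eq_zero_of_sq_eq_zero h1
  have hd2 := det_eq_zero_of_sq_eq_zero h2
  have ht2 := trace_eq_zero_of_sq_eq_zero h2
  rw [det_fin_two] at hd1 hd2
  rw [trace_fin_two] at ht1 ht2
  ext i j
  fin_cases i <;> fin_cases j <;>
    simp only [Matrix.add_apply, Matrix.mul_apply, Matrix.smul_apply, Matrix.one_apply,
      Fin.sum_univ_two, trace_fin_two, smul_eq_mul, Fin.zero_eta, Fin.mk_one, Fin.isValue] <;>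
    simp <;> grind

theorem det_comm_sq_zero (n₁ n₂ : Matrix (Fin 2) (Fin 2) F) (h1 : n₁ * n₁ = 0)
    (h2 : n₂ * n₂ = 0) : det (n₁ * n₂ - n₂ * n₁) = - (trace (n₁ * n₂)) ^ 2 := by
  have hd1 := det_eq_zero_of_sq_eq_zero h1
  have ht1 := trace_eq_zero_of_sq_eq_zero h1
  have hd2 := det_eq_zero_of_sq_eq_zero h2
  have ht2 := trace_eq_zero_of_sq_eq_zero h2
  rw [det_fin_two] at hd1 hd2
  rw [trace_fin_two] at ht1 ht2
  simp only [det_fin_two, Matrix.sub_apply, Matrix.mul_apply, Fin.sum_univ_two, trace_fin_two]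
  grind

/-- `D² w = -2 tr(w n) n` for `D w = (1+n) w (1-n) - w`, `n² = 0`. -/
theorem conj_sub_twice (n w : Matrix (Fin 2) (Fin 2) F) (hn : n * n = 0) :
    (1 + n) * ((1 + n) * w * (1 - n) - w) * (1 - n) - ((1 + n) * w * (1 - n) - w) =
      (-2 * trace (w * n)) • n := by
  have key : (1 + n) * ((1 + n) * w * (1 - n) - w) * (1 - n) - ((1 + n) * w * (1 - n) - w) =
      (-2 : F) • (n * w * n) := by
    have e1 : n * (n * w) = 0 := by rw [← Matrix.mul_assoc, hn, Matrix.zero_mul]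
    have e2 : w * n * n = 0 := by rw [Matrix.mul_assoc, hn, Matrix.mul_zero]
    have e3 : n * (n * w * n) = 0 := by
      rw [← Matrix.mul_assoc, ← Matrix.mul_assoc, hn, Matrix.zero_mul, Matrix.zero_mul]
    have e4 : n * w * n * n = 0 := by rw [Matrix.mul_assoc, hn, Matrix.mul_zero]
    simp only [Matrix.add_mul, Matrix.mul_add, Matrix.mul_sub, Matrix.sub_mul, Matrix.one_mul,
      Matrix.mul_one, Matrix.mul_assoc] at *
    simp only [e1, e3, hn, Matrix.mul_zero]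
    module
  rw [key, sq_zero_mul_mul n w hn, smul_smul]


/-- The inverse of the unipotent `1 + n` is `1 - n`. -/
theorem coe_inv_eq_one_sub (u : GL (Fin 2) F) (n : Matrix (Fin 2) (Fin 2) F)
    (hu : (u : Matrix (Fin 2) (Fin 2) F) = 1 + n) (hn : n * n = 0) :
    ((u⁻¹ : GL (Fin 2) F) : Matrix (Fin 2) (Fin 2) F) = 1 - n := by
  have h1 : (u : Matrix (Fin 2) (Fin 2) F) * (1 - n) = 1 := by
    rw [hu, Matrix.add_mul, Matrix.mul_sub, Matrix.mul_sub, hn]
    simp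
  calc ((u⁻¹ : GL (Fin 2) F) : Matrix (Fin 2) (Fin 2) F)
      = ((u⁻¹ : GL (Fin 2) F) : Matrix (Fin 2) (Fin 2) F) *
          ((u : Matrix (Fin 2) (Fin 2) F) * (1 - n)) := by rw [h1, Matrix.mul_one]
    _ = 1 - n := by
        rw [← Matrix.mul_assoc, ← Units.val_mul, inv_mul_cancel, Units.val_one, Matrix.one_mul]

/-- If `W` is stable under conjugation by the unipotent `u = 1 + n`, then `tr(w n) n ∈ W` for
all `w ∈ W`. -/
theorem trace_smul_mem_of_conj_stable (h2 : (2 : F) ≠ 0) (u : GL (Fin 2) F)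
    (n : Matrix (Fin 2) (Fin 2) F) (hu : (u : Matrix (Fin 2) (Fin 2) F) = 1 + n) (hn : n * n = 0)
    (W : Submodule F (Matrix (Fin 2) (Fin 2) F))
    (hst : ∀ w ∈ W, (u : Matrix (Fin 2) (Fin 2) F) * w *
      ((u⁻¹ : GL (Fin 2) F) : Matrix (Fin 2) (Fin 2) F) ∈ W)
    (w : Matrix (Fin 2) (Fin 2) F) (hw : w ∈ W) : trace (w * n) • n ∈ W := by
  have hinv := coe_inv_eq_one_sub u n hu hn
  have hD : ∀ x ∈ W, (1 + n) * x * (1 - n) - x ∈ W := by
    intro x hx
    have := hst x hx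
    rw [hu, hinv] at this
    exact W.sub_mem this hx
  have h3 := hD _ (hD w hw)
  rw [conj_sub_twice n w hn] at h3
  have h4 := W.smul_mem ((-2 : F)⁻¹) h3
  rw [smul_smul, ← mul_assoc, inv_mul_cancel₀ (neg_ne_zero.mpr h2), one_mul] at h4
  exact h4

section Main

variable [IsAlgClosed F]

/-- Case without nontrivial unipotent elements. -/
theorem exists_regular_of_no_unip (h2 : (2 : F) ≠ 0) (ρ : Γ →* GL (Fin 2) F) (H : Subgroup Γ)
    (hdet : ∀ h ∈ H, det (ρ h : Matrix (Fin 2) (Fin 2) F) = 1)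
    (hirr : NoStableLine ρ (H : Set Γ))
    (hnu : ∀ h ∈ H, IsUnip (ρ h : Matrix (Fin 2) (Fin 2) F) →
      (ρ h : Matrix (Fin 2) (Fin 2) F) = 1)
    (w : Matrix (Fin 2) (Fin 2) F) (hw0 : w ≠ 0) (hwtr : trace w = 0) :
    ∃ σ ∈ H, (ρ σ : Matrix (Fin 2) (Fin 2) F).discr ≠ 0 ∧
      trace (w * (ρ σ : Matrix (Fin 2) (Fin 2) F)) ≠ 0 := by
  obtain ⟨a, ha, b, hb, hab⟩ := exists_det_comm_ne_zero ρ H hirr
  -- regularity of any element pairing nontrivially with `w`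
  have hreg : ∀ σ ∈ H, trace (w * (ρ σ : Matrix (Fin 2) (Fin 2) F)) ≠ 0 →
      (ρ σ : Matrix (Fin 2) (Fin 2) F).discr ≠ 0 := by
    intro σ hσ htr hdisc
    have hns : ∀ c : F, (ρ σ : Matrix (Fin 2) (Fin 2) F) ≠ c • 1 := by
      intro c hc
      apply htr
      rw [hc, Matrix.mul_smul, Matrix.mul_one, trace_smul, hwtr, smul_zero]
    obtain ⟨hu, hne⟩ := isUnip_sq_of_discr_eq_zero h2 (hdet σ hσ) hdisc hns
    have hσσ : σ * σ ∈ H := H.mul_mem hσ hσ
    have e : (ρ (σ * σ) : Matrix (Fin 2) (Fin 2) F) =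
        (ρ σ : Matrix (Fin 2) (Fin 2) F) * (ρ σ : Matrix (Fin 2) (Fin 2) F) := by
      rw [map_mul, Units.val_mul]
    apply hne
    rw [← e]
    apply hnu _ hσσ
    rw [e]
    exact hu
  by_contra hcon
  push Not at hcon
  have t1 : trace (w * (ρ a : Matrix (Fin 2) (Fin 2) F)) = 0 := by
    by_contra h
    exact h (hcon a ha (hreg a ha h))
  have t2 : trace (w * (ρ b : Matrix (Fin 2) (Fin 2) F)) = 0 := by
    by_contra h
    exact h (hcon b hb (hreg b hb h))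
  have t3 : trace (w * ((ρ a : Matrix (Fin 2) (Fin 2) F) * (ρ b : Matrix (Fin 2) (Fin 2) F)))
      = 0 := by
    by_contra h
    have e : (ρ (a * b) : Matrix (Fin 2) (Fin 2) F) =
        (ρ a : Matrix (Fin 2) (Fin 2) F) * (ρ b : Matrix (Fin 2) (Fin 2) F) := by
      rw [map_mul, Units.val_mul]
    rw [← e] at h
    exact h (hcon (a * b) (H.mul_mem ha hb) (hreg _ (H.mul_mem ha hb) h))
  exact hw0 (eq_zero_of_trace_mul_eq_zero _ _ w hab hwtr t1 t2 t3)


/-- Case with a nontrivial unipotent element. -/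
theorem exists_regular_of_unip (h2 : (2 : F) ≠ 0) (ρ : Γ →* GL (Fin 2) F) (H : Subgroup Γ)
    (hdet : ∀ h ∈ H, det (ρ h : Matrix (Fin 2) (Fin 2) F) = 1)
    (hirr : NoStableLine ρ (H : Set Γ))
    (s : Γ) (hsH : s ∈ H) (hs : IsUnip (ρ s : Matrix (Fin 2) (Fin 2) F))
    (hs1 : (ρ s : Matrix (Fin 2) (Fin 2) F) ≠ 1)
    (W : Submodule F (Matrix (Fin 2) (Fin 2) F)) (hW0 : W ≠ ⊥)
    (hWtr : ∀ w ∈ W, trace w = 0)
    (hWst : ∀ h ∈ H, ∀ w ∈ W, (ρ h : Matrix (Fin 2) (Fin 2) F) * w *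
      ((ρ h)⁻¹ : GL (Fin 2) F) ∈ W) :
    ∃ σ ∈ H, (ρ σ : Matrix (Fin 2) (Fin 2) F).discr ≠ 0 ∧
      ∃ w ∈ W, trace (w * (ρ σ : Matrix (Fin 2) (Fin 2) F)) ≠ 0 := by
  set n₁ : Matrix (Fin 2) (Fin 2) F := (ρ s : Matrix (Fin 2) (Fin 2) F) - 1 with hn₁def
  have hn₁ : n₁ * n₁ = 0 := hs
  have hn₁0 : n₁ ≠ 0 := sub_ne_zero.mpr hs1
  have hu₁ : (ρ s : Matrix (Fin 2) (Fin 2) F) = 1 + n₁ := by rw [hn₁def]; abel
  obtain ⟨v₁, hv₁, hnv₁⟩ : ∃ v : Fin 2 → F, v ≠ 0 ∧ n₁ *ᵥ v = 0 :=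
    Matrix.exists_mulVec_eq_zero_iff.mpr (det_eq_zero_of_sq_eq_zero hn₁)
  obtain ⟨h, hhH, hh⟩ : ∃ h ∈ H, h ∉ lineStab ρ v₁ hv₁ := by
    by_contra hcon
    push Not at hcon
    exact hirr v₁ ⟨hv₁, fun g hg => hcon g hg⟩
  set g : Matrix (Fin 2) (Fin 2) F := (ρ h : Matrix (Fin 2) (Fin 2) F) with hgdef
  set gi : Matrix (Fin 2) (Fin 2) F := (((ρ h)⁻¹ : GL (Fin 2) F) : Matrix (Fin 2) (Fin 2) F)
    with hgidef
  have hggi : g * gi = 1 := by rw [hgdef, hgidef, ← Units.val_mul, mul_inv_cancel, Units.val_one]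
  have hgig : gi * g = 1 := by rw [hgdef, hgidef, ← Units.val_mul, inv_mul_cancel, Units.val_one]
  set s' : Γ := h * s * h⁻¹ with hs'def
  have hs'H : s' ∈ H := H.mul_mem (H.mul_mem hhH hsH) (H.inv_mem hhH)
  set n₂ : Matrix (Fin 2) (Fin 2) F := g * n₁ * gi with hn₂def
  have hu₂ : (ρ s' : Matrix (Fin 2) (Fin 2) F) = 1 + n₂ := by
    rw [hs'def, map_mul, map_mul, map_inv, Units.val_mul, Units.val_mul, hu₁, hn₂def,
      Matrix.mul_add, Matrix.add_mul, Matrix.mul_one, ← hgdef, ← hgidef, hggi]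
  have hn₂ : n₂ * n₂ = 0 := by
    rw [hn₂def]
    calc g * n₁ * gi * (g * n₁ * gi) = g * n₁ * (gi * g) * n₁ * gi := by
          simp only [Matrix.mul_assoc]
      _ = 0 := by rw [hgig, Matrix.mul_one, Matrix.mul_assoc g, hn₁]; simp
  set τ : F := trace (n₁ * n₂) with hτdef
  have hτ : τ ≠ 0 := by
    intro h0
    have h0' : trace (n₂ * n₁) = 0 := by rw [Matrix.trace_mul_comm]; exact h0
    obtain ⟨c, hc⟩ := exists_smul_of_trace_mul_eq_zero hn₁ hn₁0 hv₁ hnv₁ h0'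
    have hc0 : c = 0 := by
      have h3 : n₂ *ᵥ (n₂ *ᵥ v₁) = 0 := by rw [Matrix.mulVec_mulVec, hn₂, Matrix.zero_mulVec]
      rw [hc, Matrix.mulVec_smul, hc, smul_smul] at h3
      have := (smul_eq_zero.mp h3).resolve_right hv₁
      exact mul_self_eq_zero.mp this
    rw [hc0, zero_smul] at hc
    -- `n₁ (gi v₁) = 0`
    have h4 : n₁ *ᵥ (gi *ᵥ v₁) = 0 := by
      have := congrArg (fun x => gi *ᵥ x) hc
      simp only [Matrix.mulVec_zero] at this
      rw [hn₂def, Matrix.mulVec_mulVec, ← Matrix.mul_assoc, ← Matrix.mul_assoc, hgig,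
        Matrix.one_mul, ← Matrix.mulVec_mulVec] at this
      exact this
    obtain ⟨c', hc'⟩ := exists_smul_of_mulVec_eq_zero hn₁0 hv₁ hnv₁ h4
    apply hh
    have : h⁻¹ ∈ lineStab ρ v₁ hv₁ := ⟨c', by rw [map_inv]; exact hc'⟩
    simpa using (lineStab ρ v₁ hv₁).inv_mem this
  -- the two root vectors lie in `W`
  have hW₁ := trace_smul_mem_of_conj_stable h2 (ρ s) n₁ hu₁ hn₁ W (hWst s hsH)
  have hW₂ := trace_smul_mem_of_conj_stable h2 (ρ s') n₂ hu₂ hn₂ W (hWst s' hs'H)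
  have h21 : n₂ ∈ W → n₁ ∈ W := by
    intro hmem
    have := hW₁ n₂ hmem
    rw [Matrix.trace_mul_comm] at this
    have h5 := W.smul_mem τ⁻¹ this
    rwa [smul_smul, inv_mul_cancel₀ hτ, one_smul] at h5
  obtain ⟨w, hwW, hw0⟩ := Submodule.exists_mem_ne_zero_of_ne_bot hW0
  have hn₁W : n₁ ∈ W := by
    by_cases t1 : trace (w * n₁) = 0
    · apply h21
      by_cases t2 : trace (w * n₂) = 0
      · have t3 : trace (w * (n₁ * n₂)) ≠ 0 := by
          intro t3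
          apply hw0
          refine eq_zero_of_trace_mul_eq_zero n₁ n₂ w ?_ (hWtr w hwW) t1 t2 t3
          rw [det_comm_sq_zero n₁ n₂ hn₁ hn₂]
          exact neg_ne_zero.mpr (pow_ne_zero 2 hτ)
        -- `w' = (1+n₁) w (1-n₁) - w`
        have hinv := coe_inv_eq_one_sub (ρ s) n₁ hu₁ hn₁
        have hw' : (1 + n₁) * w * (1 - n₁) - w ∈ W := by
          have := hWst s hsH w hwW
          rw [hu₁, hinv] at this
          exact W.sub_mem this hwW
        have htr' : trace (((1 + n₁) * w * (1 - n₁) - w) * n₂) = -2 * trace (w * (n₁ * n₂)) := by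
          have hanti := sq_zero_anticomm n₁ n₂ hn₁ hn₂
          have e1 : (1 + n₁) * w * (1 - n₁) - w = n₁ * w - w * n₁ - n₁ * w * n₁ := by
            simp only [Matrix.add_mul, Matrix.mul_sub, Matrix.one_mul, Matrix.mul_one]
            abel
          rw [e1, sq_zero_mul_mul n₁ w hn₁, t1, zero_smul, sub_zero, Matrix.sub_mul, trace_sub,
            Matrix.mul_assoc n₁ w n₂, Matrix.trace_mul_comm n₁ (w * n₂), Matrix.mul_assoc w n₂ n₁,
            Matrix.mul_assoc w n₁ n₂]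
          have e2 : n₂ * n₁ = τ • 1 - n₁ * n₂ := by rw [← hanti]; abel
          rw [e2, Matrix.mul_sub, trace_sub, Matrix.mul_smul, Matrix.mul_one, trace_smul,
            hWtr w hwW, smul_zero]
          ring
        have h6 := hW₂ _ hw'
        rw [htr'] at h6
        have hne : -2 * trace (w * (n₁ * n₂)) ≠ 0 :=
          mul_ne_zero (neg_ne_zero.mpr h2) t3
        have h7 := W.smul_mem (-2 * trace (w * (n₁ * n₂)))⁻¹ h6
        rwa [smul_smul, inv_mul_cancel₀ hne, one_smul] at h7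
      · have h6 := hW₂ w hwW
        have h7 := W.smul_mem (trace (w * n₂))⁻¹ h6
        rwa [smul_smul, inv_mul_cancel₀ t2, one_smul] at h7
    · have h6 := hW₁ w hwW
      have h7 := W.smul_mem (trace (w * n₁))⁻¹ h6
      rwa [smul_smul, inv_mul_cancel₀ t1, one_smul] at h7
  -- the regular element
  have htr1 : trace n₁ = 0 := trace_eq_zero_of_sq_eq_zero hn₁
  have htr2 : trace n₂ = 0 := trace_eq_zero_of_sq_eq_zero hn₂
  by_cases hτ4 : τ + 4 = 0
  · -- use `s * s' * s'`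
    refine ⟨s * s' * s', H.mul_mem (H.mul_mem hsH hs'H) hs'H, ?_, n₁, hn₁W, ?_⟩
    · have hd := hdet _ (H.mul_mem (H.mul_mem hsH hs'H) hs'H)
      have e : (ρ (s * s' * s') : Matrix (Fin 2) (Fin 2) F) = (1 + n₁) * (1 + (2 : F) • n₂) := by
        rw [map_mul, map_mul, Units.val_mul, Units.val_mul, hu₁, hu₂, Matrix.mul_assoc]
        congr 1
        rw [Matrix.add_mul, Matrix.mul_add, Matrix.mul_add, hn₂, two_smul]
        simp only [Matrix.one_mul, Matrix.mul_one]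
        abel
      rw [discr_fin_two, hd, e]
      have : trace ((1 + n₁) * (1 + (2 : F) • n₂)) = 2 + 2 * τ := by
        simp only [Matrix.add_mul, Matrix.mul_add, Matrix.one_mul, Matrix.mul_one, trace_add,
          trace_one, Fintype.card_fin, Matrix.mul_smul, trace_smul, htr1, htr2, smul_eq_mul]
        rw [← hτdef]; push_cast; ring
      rw [this]
      have hτv : τ = -4 := by linear_combination hτ4
      rw [hτv]
      have : ((2 : F) + 2 * -4) ^ 2 - 4 * 1 = 2 ^ 5 := by ring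
      rw [this]
      exact pow_ne_zero 5 h2
    · have e : (ρ (s * s' * s') : Matrix (Fin 2) (Fin 2) F) = (1 + n₁) * (1 + (2 : F) • n₂) := by
        rw [map_mul, map_mul, Units.val_mul, Units.val_mul, hu₁, hu₂, Matrix.mul_assoc]
        congr 1
        rw [Matrix.add_mul, Matrix.mul_add, Matrix.mul_add, hn₂, two_smul]
        simp only [Matrix.one_mul, Matrix.mul_one]
        abel
      rw [e]
      have : trace (n₁ * ((1 + n₁) * (1 + (2 : F) • n₂))) = 2 * τ := by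
        rw [← Matrix.mul_assoc, Matrix.mul_add n₁, hn₁, Matrix.mul_one, add_zero, Matrix.mul_add,
          Matrix.mul_one, trace_add, htr1, zero_add, Matrix.mul_smul, trace_smul, smul_eq_mul]
      rw [this]
      exact mul_ne_zero h2 hτ
  · refine ⟨s * s', H.mul_mem hsH hs'H, ?_, n₁, hn₁W, ?_⟩
    · have hd := hdet _ (H.mul_mem hsH hs'H)
      have e : (ρ (s * s') : Matrix (Fin 2) (Fin 2) F) = (1 + n₁) * (1 + n₂) := by
        rw [map_mul, Units.val_mul, hu₁, hu₂]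
      rw [discr_fin_two, hd, e]
      have : trace ((1 + n₁) * (1 + n₂)) = 2 + τ := by
        simp only [Matrix.add_mul, Matrix.mul_add, Matrix.one_mul, Matrix.mul_one, trace_add,
          trace_one, Fintype.card_fin, htr1, htr2]
        rw [← hτdef]; push_cast; ring
      rw [this]
      have : ((2 : F) + τ) ^ 2 - 4 * 1 = τ * (τ + 4) := by ring
      rw [this]
      exact mul_ne_zero hτ hτ4
    · have e : (ρ (s * s') : Matrix (Fin 2) (Fin 2) F) = (1 + n₁) * (1 + n₂) := by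
        rw [map_mul, Units.val_mul, hu₁, hu₂]
      rw [e]
      have : trace (n₁ * ((1 + n₁) * (1 + n₂))) = τ := by
        rw [← Matrix.mul_assoc, Matrix.mul_add n₁, hn₁, Matrix.mul_one, add_zero, Matrix.mul_add,
          Matrix.mul_one, trace_add, htr1, zero_add]
      rw [this]
      exact hτ

/-- **Step 3.**  For every nonzero `ρ(H)`-stable subspace `W` of trace-zero matrices there are a
regular `σ ∈ H` and `w ∈ W` with `tr (w ρ(σ)) ≠ 0`. -/
theorem exists_regular_trace_ne_zero (h2 : (2 : F) ≠ 0) (ρ : Γ →* GL (Fin 2) F) (H : Subgroup Γ)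
    (hdet : ∀ h ∈ H, det (ρ h : Matrix (Fin 2) (Fin 2) F) = 1)
    (hirr : NoStableLine ρ (H : Set Γ))
    (W : Submodule F (Matrix (Fin 2) (Fin 2) F)) (hW0 : W ≠ ⊥)
    (hWtr : ∀ w ∈ W, trace w = 0)
    (hWst : ∀ h ∈ H, ∀ w ∈ W, (ρ h : Matrix (Fin 2) (Fin 2) F) * w *
      ((ρ h)⁻¹ : GL (Fin 2) F) ∈ W) :
    ∃ σ ∈ H, (ρ σ : Matrix (Fin 2) (Fin 2) F).discr ≠ 0 ∧
      ∃ w ∈ W, trace (w * (ρ σ : Matrix (Fin 2) (Fin 2) F)) ≠ 0 := by
  by_cases hnu : ∀ h ∈ H, IsUnip (ρ h : Matrix (Fin 2) (Fin 2) F) →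
      (ρ h : Matrix (Fin 2) (Fin 2) F) = 1
  · obtain ⟨w, hwW, hw0⟩ := Submodule.exists_mem_ne_zero_of_ne_bot hW0
    obtain ⟨σ, hσ, hd, ht⟩ := exists_regular_of_no_unip h2 ρ H hdet hirr hnu w hw0 (hWtr w hwW)
    exact ⟨σ, hσ, hd, w, hwW, ht⟩
  · push Not at hnu
    obtain ⟨s, hsH, hs, hs1⟩ := hnu
    exact exists_regular_of_unip h2 ρ H hdet hirr s hsH hs hs1 W hW0 hWtr hWst

end Main

end Fermat.Agent.TW.Select.Step3_75
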